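import Mathlib.NumberTheory.NumberField.CanonicalEmbedding.FundamentalCone
import Mathlib.Analysis.SpecialFunctions.Pow.Real
import Mathlib.Analysis.Normed.Module.FiniteDimension
import Mathlib.Topology.Algebra.InfiniteSum.Basic

/-!
A Lipschitz, scale invariant partition of unity on the mixed space for the action of the units
modulo torsion, and the oscillation estimate for `weight x * norm x ^ (-s)`.
-/

noncomputable section

open NumberField NumberField.InfinitePlace NumberField.mixedEmbedding NumberField.Units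
  NumberField.Units.dirichletUnitTheorem Module

open scoped Classical

namespace Fermat.Agent.ClassField

/-- The hat function. -/
def hat (t : ℝ) : ℝ := max 0 (1 - |t|)

lemma hat_nonneg (t : ℝ) : 0 ≤ hat t := le_max_left _ _

lemma hat_le_one (t : ℝ) : hat t ≤ 1 := max_le zero_le_one (by linarith [abs_nonneg t])

lemma hat_eq_zero {t : ℝ} (h : 1 ≤ |t|) : hat t = 0 := max_eq_left (by linarith)

lemma abs_hat_sub_le (s t : ℝ) : |hat s - hat t| ≤ |s - t| :=
  (abs_max_sub_max_le_max 0 (1 - |s|) 0 (1 - |t|)).trans (by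
    rw [sub_self, abs_zero, max_eq_right (abs_nonneg _), show 1 - |s| - (1 - |t|) = |t| - |s| by ring]
    exact (abs_abs_sub_abs_le_abs_sub t s).trans (abs_sub_comm t s).le)

lemma abs_prod_sub_prod_le {ι : Type*} (S : Finset ι) (f g : ι → ℝ)
    (hf : ∀ i, f i ∈ Set.Icc (0 : ℝ) 1) (hg : ∀ i, g i ∈ Set.Icc (0 : ℝ) 1) :
    |∏ i ∈ S, f i - ∏ i ∈ S, g i| ≤ ∑ i ∈ S, |f i - g i| := by
  classical
  induction S using Finset.induction_on with
  | empty => simp
  | insert a S ha ih =>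
    rw [Finset.prod_insert ha, Finset.prod_insert ha, Finset.sum_insert ha,
      show f a * (∏ i ∈ S, f i) - g a * (∏ i ∈ S, g i) =
        (f a - g a) * (∏ i ∈ S, f i) + g a * ((∏ i ∈ S, f i) - (∏ i ∈ S, g i)) by ring]
    refine (abs_add_le _ _).trans (add_le_add ?_ ?_)
    · rw [abs_mul]
      refine mul_le_of_le_one_right (abs_nonneg _) ?_
      rw [abs_of_nonneg (Finset.prod_nonneg fun i _ ↦ (hf i).1)]
      exact Finset.prod_le_one (fun i _ ↦ (hf i).1) (fun i _ ↦ (hf i).2)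
    · rw [abs_mul, abs_of_nonneg (hg a).1]
      exact le_trans (mul_le_of_le_one_left (abs_nonneg _) (hg a).2) ih

variable (K : Type*) [Field K] [NumberField K]

open scoped Classical in
/-- Coordinates on the log space for the basis of the unit lattice. -/
def coordEquiv : logSpace K ≃ₗ[ℝ] (Fin (Units.rank K) → ℝ) :=
  ((basisUnitLattice K).ofZLatticeBasis ℝ _).equivFun

/-- The unit with given exponents on the fundamental system. -/
def unitOfExp (e : Fin (Units.rank K) → ℤ) : (𝓞 K)ˣ := ∏ i, fundSystem K i ^ e i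

/-- The partition of unity. -/
def weight (x : mixedSpace K) : ℝ :=
  if mixedEmbedding.norm x = 0 then 0 else ∏ i, hat (coordEquiv K (logMap x) i)

/-- The summand. -/
def term (s : ℝ) (x : mixedSpace K) : ℝ := weight K x * mixedEmbedding.norm x ^ (-s)

variable {K}

lemma coordEquiv_unitOfExp (e : Fin (Units.rank K) → ℤ) :
    coordEquiv K (logEmbedding K (Additive.ofMul (unitOfExp K e))) = fun i ↦ (e i : ℝ) := by
  classical
  rw [unitOfExp, ofMul_prod, map_sum, map_sum]
  ext i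
  simp only [ofMul_zpow, map_zsmul, logEmbedding_fundSystem, Finset.sum_apply, Pi.smul_apply]
  have : ∀ j, coordEquiv K (basisUnitLattice K j) = Pi.single j (1 : ℝ) := by
    intro j
    rw [← Basis.ofZLatticeBasis_apply ℝ (unitLattice K)]
    ext k
    simp [coordEquiv, Pi.single_apply, Finsupp.single_apply, eq_comm]
  simp [this, Pi.single_apply, Finset.sum_ite_eq]

lemma weight_nonneg (x : mixedSpace K) : 0 ≤ weight K x := by
  unfold weight; split_ifs
  · exact le_rfl
  · exact Finset.prod_nonneg fun i _ ↦ hat_nonneg _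

lemma weight_le_one (x : mixedSpace K) : weight K x ≤ 1 := by
  unfold weight; split_ifs
  · exact zero_le_one
  · exact Finset.prod_le_one (fun i _ ↦ hat_nonneg _) (fun i _ ↦ hat_le_one _)

lemma term_nonneg (s : ℝ) (x : mixedSpace K) : 0 ≤ term K s x :=
  mul_nonneg (weight_nonneg x) (Real.rpow_nonneg (mixedEmbedding.norm_nonneg x) _)

lemma term_zero (s : ℝ) : term K s 0 = 0 := by simp [term, weight]

lemma hasSum_hat (t : ℝ) : HasSum (fun k : ℤ ↦ hat (t + k)) 1 := by
  have h : hat (t + (-⌊t⌋ : ℤ)) + hat (t + (-⌊t⌋ - 1 : ℤ)) = 1 := by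
    have h1 := Int.floor_le t
    have h2 := Int.lt_floor_add_one t
    unfold hat
    push_cast
    rw [abs_of_nonneg (by linarith), abs_of_neg (by linarith),
      max_eq_right (by linarith), max_eq_right (by linarith)]
    ring
  rw [← h, ← Finset.sum_pair (f := fun k : ℤ ↦ hat (t + k)) (by omega)]
  refine hasSum_sum_of_ne_finset_zero fun k hk ↦ hat_eq_zero ?_
  simp only [Finset.mem_insert, Finset.mem_singleton, not_or] at hk
  have h1 := Int.floor_le t
  have h2 := Int.lt_floor_add_one t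
  rcases (by omega : k ≤ -⌊t⌋ - 2 ∨ -⌊t⌋ + 1 ≤ k) with hk' | hk'
  · have : (k : ℝ) ≤ -⌊t⌋ - 2 := by exact_mod_cast hk'
    rw [abs_of_neg (by linarith)]; linarith
  · have : (-⌊t⌋ + 1 : ℝ) ≤ k := by exact_mod_cast hk'
    rw [abs_of_nonneg (by linarith)]; linarith

lemma hasSum_prod_hat {n : ℕ} (t : Fin n → ℝ) :
    HasSum (fun e : Fin n → ℤ ↦ ∏ i, hat (t i + e i)) 1 := by
  classical
  let S : Fin n → Finset ℤ := fun i ↦ {-⌊t i⌋, -⌊t i⌋ - 1}
  have hS : ∀ i k, k ∉ S i → hat (t i + k) = 0 := by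
    intro i k hk
    refine hat_eq_zero ?_
    simp only [S, Finset.mem_insert, Finset.mem_singleton, not_or] at hk
    have h1 := Int.floor_le (t i)
    have h2 := Int.lt_floor_add_one (t i)
    rcases (by omega : k ≤ -⌊t i⌋ - 2 ∨ -⌊t i⌋ + 1 ≤ k) with hk' | hk'
    · have : (k : ℝ) ≤ -⌊t i⌋ - 2 := by exact_mod_cast hk'
      rw [abs_of_neg (by linarith)]; linarith
    · have : (-⌊t i⌋ + 1 : ℝ) ≤ k := by exact_mod_cast hk'
      rw [abs_of_nonneg (by linarith)]; linarith
  have : ∑ e ∈ Fintype.piFinset S, ∏ i, hat (t i + e i) = 1 := by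
    rw [← Finset.prod_univ_sum S fun i k ↦ hat (t i + (k : ℝ))]
    refine Finset.prod_eq_one fun i _ ↦ ?_
    exact (hasSum_sum_of_ne_finset_zero (s := S i) (hS i)).unique (hasSum_hat (t i))
  rw [← this]
  refine hasSum_sum_of_ne_finset_zero fun e he ↦ ?_
  rw [Fintype.mem_piFinset, not_forall] at he
  obtain ⟨i, hi⟩ := he
  exact Finset.prod_eq_zero (Finset.mem_univ i) (hS i _ hi)

lemma hasSum_weight_unitSMul {x : mixedSpace K} (hx : mixedEmbedding.norm x ≠ 0) :
    HasSum (fun e ↦ weight K (unitOfExp K e • x)) 1 := by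
  refine (hasSum_prod_hat (coordEquiv K (logMap x))).congr_fun fun e ↦ ?_
  rw [weight, norm_unit_smul, if_neg hx, logMap_unit_smul _ hx, map_add, coordEquiv_unitOfExp]
  simp [add_comm]

lemma abs_log_sub_le {x : mixedSpace K} (hx : mixedEmbedding.norm x ≠ 0) (w : InfinitePlace K) :
    |Real.log (normAtPlace w x) - Real.log (mixedEmbedding.norm x) * (finrank ℚ K : ℝ)⁻¹| ≤
      (Fintype.card (InfinitePlace K) : ℝ) * ‖logMap x‖ := by
  classical
  set L := Real.log (mixedEmbedding.norm x) * (finrank ℚ K : ℝ)⁻¹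
  set d : InfinitePlace K → ℝ := fun w ↦ mult w * (Real.log (normAtPlace w x) - L)
  have hsum : ∑ w, d w = 0 := by
    simp only [d, mul_sub, Finset.sum_sub_distrib, ← Finset.sum_mul]
    rw [show (∑ w : InfinitePlace K, (mult w : ℝ)) = (finrank ℚ K : ℝ) from mod_cast sum_mult_eq,
      show (finrank ℚ K : ℝ) * L = (finrank ℚ K : ℝ) *
        ((finrank ℚ K : ℝ)⁻¹ * Real.log (mixedEmbedding.norm x)) by
          rw [mul_comm ((finrank ℚ K : ℝ)⁻¹)], ← mul_assoc,
      mul_inv_cancel₀ (Nat.cast_ne_zero.mpr finrank_pos.ne'), one_mul,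
      mixedEmbedding.norm_apply, Real.log_prod (fun w _ ↦ pow_ne_zero _
        (mixedEmbedding.norm_ne_zero_iff.mp hx w))]
    simp only [Real.log_pow, sub_self]
  have hle : ∀ v, v ≠ w₀ → |d v| ≤ ‖logMap x‖ := by
    intro v hv
    have := norm_le_pi_norm (logMap x) ⟨v, hv⟩
    rwa [logMap_apply, Real.norm_eq_abs] at this
  have hall : |d w| ≤ (Fintype.card (InfinitePlace K) : ℝ) * ‖logMap x‖ := by
    have h1 : (1 : ℝ) ≤ (Fintype.card (InfinitePlace K) : ℝ) := by
      exact_mod_cast Fintype.card_pos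
    by_cases hw : w = w₀
    · subst hw
      rw [← Finset.add_sum_erase _ d (Finset.mem_univ w₀), add_eq_zero_iff_eq_neg] at hsum
      rw [hsum, abs_neg]
      refine (Finset.abs_sum_le_sum_abs _ _).trans
        ((Finset.sum_le_card_nsmul _ _ _ fun v hv ↦ hle v (Finset.ne_of_mem_erase hv)).trans ?_)
      rw [nsmul_eq_mul]
      refine mul_le_mul_of_nonneg_right ?_ (norm_nonneg _)
      exact_mod_cast Finset.card_le_univ _
    · exact (hle w hw).trans (le_mul_of_one_le_left (norm_nonneg _) h1)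
  refine le_trans ?_ hall
  simp only [d, abs_mul, Nat.abs_cast]
  exact le_mul_of_one_le_left (abs_nonneg _) (by exact_mod_cast one_le_mult)

variable (K) in
/-- On the support of the weight all the `normAtPlace` are comparable to the norm. -/
lemma exists_support_bound :
    ∃ κ : ℝ, 0 < κ ∧ κ ≤ 1 ∧ ∀ x : mixedSpace K, weight K x ≠ 0 →
      ∀ w, κ * ‖x‖ ≤ normAtPlace w x := by
  classical
  let T := (coordEquiv K).symm.toLinearMap.toContinuousLinearMap
  set b : ℝ := (Fintype.card (InfinitePlace K) : ℝ) * ‖T‖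
  have hb : 0 ≤ b := by positivity
  refine ⟨Real.exp (-(2 * b)), Real.exp_pos _, Real.exp_le_one_iff.mpr (by linarith),
    fun x hx w ↦ ?_⟩
  have hx0 : mixedEmbedding.norm x ≠ 0 := fun h ↦ hx (by simp [weight, h])
  rw [weight, if_neg hx0, Finset.prod_ne_zero_iff] at hx
  have hc : ‖coordEquiv K (logMap x)‖ ≤ 1 := by
    refine (pi_norm_le_iff_of_nonneg zero_le_one).mpr fun i ↦ ?_
    by_contra h
    exact hx i (Finset.mem_univ i) (hat_eq_zero (not_le.mp h).le)
  have hl : ‖logMap x‖ ≤ ‖T‖ := by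
    calc ‖logMap x‖ = ‖T (coordEquiv K (logMap x))‖ := by simp [T]
      _ ≤ ‖T‖ * ‖coordEquiv K (logMap x)‖ := T.le_opNorm _
      _ ≤ ‖T‖ := mul_le_of_le_one_right (norm_nonneg _) hc
  have hv : ∀ v, |Real.log (normAtPlace v x) -
      Real.log (mixedEmbedding.norm x) * (finrank ℚ K : ℝ)⁻¹| ≤ b := fun v ↦
    (abs_log_sub_le hx0 v).trans (mul_le_mul_of_nonneg_left hl (Nat.cast_nonneg _))
  have hpos : ∀ v, 0 < normAtPlace v x := fun v ↦
    lt_of_le_of_ne (normAtPlace_nonneg _ _) (mixedEmbedding.norm_ne_zero_iff.mp hx0 v).symm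
  rw [norm_eq_sup'_normAtPlace, Finset.mul₀_sup' (Real.exp_pos _).le]
  refine Finset.sup'_le _ _ fun v _ ↦ ?_
  rw [← Real.exp_log (hpos v), ← Real.exp_log (hpos w), ← Real.exp_add]
  refine Real.exp_le_exp.mpr ?_
  have h1 := abs_le.mp (hv v)
  have h2 := abs_le.mp (hv w)
  linarith [h1.1, h1.2, h2.1, h2.2]

lemma pow_le_norm {x : mixedSpace K} {c : ℝ} (hc : 0 ≤ c) (h : ∀ w, c ≤ normAtPlace w x) :
    c ^ finrank ℚ K ≤ mixedEmbedding.norm x := by
  rw [mixedEmbedding.norm_apply, ← sum_mult_eq, ← Finset.prod_pow_eq_pow_sum]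
  exact Finset.prod_le_prod (fun w _ ↦ pow_nonneg hc _) fun w _ ↦ pow_le_pow_left₀ hc (h w) _

lemma abs_normAtPlace_sub_le (w : InfinitePlace K) (x y : mixedSpace K) :
    |normAtPlace w y - normAtPlace w x| ≤ ‖y - x‖ := by
  have hle : ∀ z : mixedSpace K, normAtPlace w z ≤ ‖z‖ := fun z ↦ by
    rw [norm_eq_sup'_normAtPlace]
    exact Finset.le_sup' (fun w ↦ normAtPlace w z) (Finset.mem_univ w)
  rw [abs_sub_le_iff]
  constructor
  · have := normAtPlace_add_le w (y - x) x
    rw [sub_add_cancel] at this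
    linarith [hle (y - x)]
  · have := normAtPlace_add_le w (x - y) y
    rw [sub_add_cancel] at this
    rw [norm_sub_rev]
    linarith [hle (x - y)]

lemma abs_log_sub_log_le {a b c : ℝ} (hc : 0 < c) (ha : c ≤ a) (hb : c ≤ b) :
    |Real.log a - Real.log b| ≤ |a - b| / c := by
  have key : ∀ {u v : ℝ}, c ≤ u → c ≤ v → Real.log u - Real.log v ≤ |u - v| / c := by
    intro u v hu hv
    have hu0 : 0 < u := hc.trans_le hu
    have hv0 : 0 < v := hc.trans_le hv
    rw [← Real.log_div hu0.ne' hv0.ne']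
    refine (Real.log_le_sub_one_of_pos (div_pos hu0 hv0)).trans ?_
    rw [div_sub_one hv0.ne']
    refine (div_le_div_of_nonneg_right (le_abs_self _) hv0.le).trans ?_
    exact div_le_div_of_nonneg_left (abs_nonneg _) hc hv
  refine abs_sub_le_iff.mpr ⟨key ha hb, ?_⟩
  rw [abs_sub_comm]
  exact key hb ha

lemma abs_exp_sub_exp_le (a b : ℝ) :
    |Real.exp a - Real.exp b| ≤ max (Real.exp a) (Real.exp b) * |a - b| := by
  wlog h : b ≤ a generalizing a b
  · rw [abs_sub_comm, abs_sub_comm a, max_comm]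
    exact this b a (le_of_not_ge h)
  rw [abs_of_nonneg (sub_nonneg.mpr (Real.exp_le_exp.mpr h)), abs_of_nonneg (sub_nonneg.mpr h),
    max_eq_left (Real.exp_le_exp.mpr h)]
  have h1 : Real.exp b = Real.exp a * Real.exp (b - a) := by rw [← Real.exp_add]; ring_nf
  nlinarith [mul_le_mul_of_nonneg_left (Real.add_one_le_exp (b - a)) (Real.exp_pos a).le]

variable (K) in
/-- The oscillation estimate. -/
theorem exists_oscillation_bound (r : ℝ) (hr : 0 < r) :
    ∃ C R : ℝ, 0 ≤ C ∧ 0 < R ∧ ∀ x y : mixedSpace K, R ≤ ‖x‖ → weight K x ≠ 0 →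
      ‖y - x‖ ≤ r → ∀ s ∈ Set.Icc (1 : ℝ) 2,
      |term K s y - term K s x| ≤ C / ‖x‖ ^ (finrank ℚ K + 1) := by
  classical
  obtain ⟨κ, hκ, hκ1, hsupp⟩ := exists_support_bound K
  obtain ⟨T, hT⟩ : ∃ T : logSpace K →L[ℝ] (Fin (Units.rank K) → ℝ), ∀ v, T v = coordEquiv K v :=
    ⟨(coordEquiv K).toLinearMap.toContinuousLinearMap, fun v ↦ rfl⟩
  set n := finrank ℚ K
  set A : ℝ := (Units.rank K) * ‖T‖ * 4 + 2 * n
  refine ⟨A * (2 * r / κ) * (2 / κ) ^ n, 2 * r / κ + 2 / κ, by positivity, by positivity,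
    fun x y hR hx hy s hs ↦ ?_⟩
  set c := κ * ‖x‖ / 2 with hcdef
  have hR1 : 2 * r / κ ≤ ‖x‖ := le_trans (le_add_of_nonneg_right (by positivity)) hR
  have hR2 : 2 / κ ≤ ‖x‖ := le_trans (le_add_of_nonneg_left (by positivity)) hR
  rw [div_le_iff₀' hκ] at hR1 hR2
  have hc1 : 1 ≤ c := by rw [hcdef]; linarith
  have hc0 : 0 < c := by linarith
  have hxw : ∀ w, c ≤ normAtPlace w x := fun w ↦ by
    have := hsupp x hx w; rw [hcdef]; linarith
  have hyw : ∀ w, c ≤ normAtPlace w y := fun w ↦ by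
    have := hsupp x hx w
    have h := (abs_le.mp (abs_normAtPlace_sub_le w x y)).1
    rw [hcdef]; linarith
  have hNx : c ^ n ≤ mixedEmbedding.norm x := pow_le_norm hc0.le hxw
  have hNy : c ^ n ≤ mixedEmbedding.norm y := pow_le_norm hc0.le hyw
  have hNx0 : 0 < mixedEmbedding.norm x := (pow_pos hc0 n).trans_le hNx
  have hNy0 : 0 < mixedEmbedding.norm y := (pow_pos hc0 n).trans_le hNy
  set δ := r / c
  have hδ : 0 ≤ δ := by positivity
  have hlog : ∀ w, |Real.log (normAtPlace w y) - Real.log (normAtPlace w x)| ≤ δ := fun w ↦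
    (abs_log_sub_log_le hc0 (hyw w) (hxw w)).trans
      (div_le_div_of_nonneg_right ((abs_normAtPlace_sub_le w x y).trans hy) hc0.le)
  have hlogN : |Real.log (mixedEmbedding.norm y) - Real.log (mixedEmbedding.norm x)| ≤ n * δ := by
    rw [mixedEmbedding.norm_apply, mixedEmbedding.norm_apply,
      Real.log_prod (fun w _ ↦ pow_ne_zero _ (hc0.trans_le (hyw w)).ne'),
      Real.log_prod (fun w _ ↦ pow_ne_zero _ (hc0.trans_le (hxw w)).ne'), ← Finset.sum_sub_distrib]
    refine (Finset.abs_sum_le_sum_abs _ _).trans ?_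
    rw [show (n : ℝ) * δ = ∑ w : InfinitePlace K, (mult w : ℝ) * δ by
      rw [← Finset.sum_mul]; congr 1; exact_mod_cast sum_mult_eq.symm]
    refine Finset.sum_le_sum fun w _ ↦ ?_
    rw [Real.log_pow, Real.log_pow, ← mul_sub, abs_mul, Nat.abs_cast]
    exact mul_le_mul_of_nonneg_left (hlog w) (Nat.cast_nonneg _)
  have hmap : ‖logMap y - logMap x‖ ≤ 4 * δ := by
    refine (pi_norm_le_iff_of_nonneg (by positivity)).mpr fun w ↦ ?_
    rw [Pi.sub_apply, logMap_apply, logMap_apply, ← mul_sub, Real.norm_eq_abs, abs_mul,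
      Nat.abs_cast]
    have h2 : (mult w.1 : ℝ) ≤ 2 := by
      rcases (InfinitePlace.mult_coe_ne_zero (w := w.1)) with _
      rw [InfinitePlace.mult]; split_ifs <;> norm_num
    have h3 : |Real.log (normAtPlace w.1 y) - Real.log (mixedEmbedding.norm y) * (n : ℝ)⁻¹ -
        (Real.log (normAtPlace w.1 x) - Real.log (mixedEmbedding.norm x) * (n : ℝ)⁻¹)| ≤ 2 * δ := by
      rw [show ∀ a b c d : ℝ, a - b * (n : ℝ)⁻¹ - (c - d * (n : ℝ)⁻¹) =
        (a - c) - (b - d) * (n : ℝ)⁻¹ from fun a b c d ↦ by ring]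
      refine (abs_sub _ _).trans ?_
      rw [two_mul]
      refine add_le_add (hlog w.1) ?_
      rw [abs_mul, abs_of_nonneg (by positivity : (0 : ℝ) ≤ (n : ℝ)⁻¹), ← div_eq_mul_inv,
        div_le_iff₀ (Nat.cast_pos.mpr finrank_pos), mul_comm δ]
      exact hlogN
    calc (mult w.1 : ℝ) * _ ≤ 2 * (2 * δ) := mul_le_mul h2 h3 (abs_nonneg _) zero_le_two
      _ = 4 * δ := by ring
  have hW : |weight K y - weight K x| ≤ Units.rank K * ‖T‖ * 4 * δ := by
    rw [weight, weight, if_neg hNy0.ne', if_neg hNx0.ne']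
    refine (abs_prod_sub_prod_le _ _ _ (fun i ↦ ⟨hat_nonneg _, hat_le_one _⟩)
      (fun i ↦ ⟨hat_nonneg _, hat_le_one _⟩)).trans ?_
    refine (Finset.sum_le_card_nsmul _ _ (‖T‖ * (4 * δ)) fun i _ ↦
      (abs_hat_sub_le _ _).trans ?_).trans ?_
    · rw [← Real.norm_eq_abs, ← Pi.sub_apply, ← map_sub]
      refine (norm_le_pi_norm (coordEquiv K (logMap y - logMap x)) i).trans ?_
      rw [← hT]
      exact (T.le_opNorm _).trans (mul_le_mul_of_nonneg_left hmap (norm_nonneg T))
    · rw [Finset.card_univ, Fintype.card_fin, nsmul_eq_mul]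
      exact le_of_eq (by ring)
  set u := c⁻¹ ^ n
  have hpow : ∀ z : mixedSpace K, c ^ n ≤ mixedEmbedding.norm z →
      mixedEmbedding.norm z ^ (-s) ≤ u := by
    intro z hz
    have hz1 : (1 : ℝ) ≤ mixedEmbedding.norm z := (one_le_pow₀ hc1).trans hz
    refine (Real.rpow_le_rpow_of_exponent_le hz1 (neg_le_neg hs.1)).trans ?_
    rw [Real.rpow_neg_one, show u = (c ^ n)⁻¹ from inv_pow c n]
    exact inv_anti₀ (pow_pos hc0 n) hz
  have hP : |mixedEmbedding.norm y ^ (-s) - mixedEmbedding.norm x ^ (-s)| ≤ u * (2 * n * δ) := by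
    have e : ∀ {N : ℝ}, 0 < N → N ^ (-s) = Real.exp (Real.log N * (-s)) := fun h ↦
      Real.rpow_def_of_pos h _
    rw [e hNy0, e hNx0]
    refine (abs_exp_sub_exp_le _ _).trans (mul_le_mul ?_ ?_ (abs_nonneg _) (by positivity))
    · rw [← e hNy0, ← e hNx0]
      exact max_le (hpow y hNy) (hpow x hNx)
    · rw [← sub_mul, abs_mul, abs_neg, abs_of_nonneg (by linarith [hs.1] : (0 : ℝ) ≤ s)]
      calc _ ≤ (n * δ) * 2 := mul_le_mul hlogN hs.2 (by linarith [hs.1]) (by positivity)
        _ = _ := by ring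
  have hmain : |term K s y - term K s x| ≤ A * δ * u := by
    rw [term, term, show ∀ a b c d : ℝ, a * b - c * d = (a - c) * b + c * (b - d) from
      fun a b c d ↦ by ring]
    refine (abs_add_le _ _).trans ?_
    rw [abs_mul, abs_mul, abs_of_nonneg (weight_nonneg x),
      abs_of_nonneg (Real.rpow_nonneg (mixedEmbedding.norm_nonneg y) _)]
    have h1 := mul_le_mul hW (hpow y hNy) (Real.rpow_nonneg (mixedEmbedding.norm_nonneg y) _)
      (by positivity)
    have h2 := (mul_le_of_le_one_left (abs_nonneg _) (weight_le_one x)).trans hP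
    calc _ ≤ Units.rank K * ‖T‖ * 4 * δ * u + u * (2 * n * δ) := add_le_add h1 h2
      _ = A * δ * u := by ring
  refine hmain.trans (le_of_eq ?_)
  have hx0 : ‖x‖ ≠ 0 := fun h ↦ by rw [hcdef, h] at hc0; linarith
  simp only [δ, u, hcdef, inv_pow, mul_pow, div_pow, pow_succ]
  field_simp

end Fermat.Agent.ClassField
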