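import Fermat.Agent.ClassField.SumIntegral
import Fermat.Agent.ClassField.ConeWeight
import Mathlib.NumberTheory.NumberField.DedekindZeta
import Mathlib.NumberTheory.NumberField.Discriminant.Basic

/-!
Partial zeta functions of ideal classes near `s = 1`: they agree up to a bounded error.
-/

noncomputable section

open NumberField NumberField.InfinitePlace NumberField.mixedEmbedding
  NumberField.mixedEmbedding.fundamentalCone Module MeasureTheory
  Filter Topology

open scoped nonZeroDivisors Classical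

namespace Fermat.Agent.ClassField

variable (K : Type*) [Field K] [NumberField K]

/-- The partial zeta function of an ideal class. -/
def classZeta (C : ClassGroup (𝓞 K)) (s : ℝ) : ℝ :=
  ∑' I : {I : (Ideal (𝓞 K))⁰ // ClassGroup.mk0 I = C}, (Ideal.absNorm I.1.1 : ℝ) ^ (-s)

/-- The zeta function as a sum over nonzero ideals. -/
def idealZeta (s : ℝ) : ℝ := ∑' I : (Ideal (𝓞 K))⁰, (Ideal.absNorm I.1 : ℝ) ^ (-s)

/-- The summand away from the origin. -/
def farTerm (s : ℝ) (x : mixedSpace K) : ℝ := if 1 ≤ ‖x‖ then term K s x else 0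

variable {K}

lemma farTerm_nonneg (s : ℝ) (x : mixedSpace K) : 0 ≤ farTerm K s x := by
  unfold farTerm; split_ifs
  exacts [term_nonneg s x, le_rfl]

variable (K) in
lemma exists_farTerm_le :
    ∃ M : ℝ, 0 ≤ M ∧ ∀ x : mixedSpace K, ∀ s ∈ Set.Icc (1 : ℝ) 2,
      farTerm K s x ≤ M * (1 + ‖x‖) ^ (-((finrank ℚ K : ℝ) * s)) := by
  obtain ⟨κ, hκ, hκ1, hsupp⟩ := exists_support_bound K
  set n := finrank ℚ K
  refine ⟨(κ / 2) ^ (-((n : ℝ) * 2)), by positivity, fun x s hs ↦ ?_⟩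
  have hp : (0 : ℝ) ≤ (1 + ‖x‖) ^ (-((n : ℝ) * s)) := Real.rpow_nonneg (by positivity) _
  unfold farTerm
  split_ifs with h1
  swap
  · exact mul_nonneg (Real.rpow_nonneg (by positivity) _) hp
  by_cases hw : weight K x = 0
  · rw [term, hw, zero_mul]; exact mul_nonneg (Real.rpow_nonneg (by positivity) _) hp
  have hN : ((κ / 2) * (1 + ‖x‖)) ^ n ≤ mixedEmbedding.norm x :=
    pow_le_norm (by positivity) fun w ↦ le_trans (by nlinarith) (hsupp x hw w)
  refine (mul_le_of_le_one_left (Real.rpow_nonneg (mixedEmbedding.norm_nonneg x) _)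
    (weight_le_one x)).trans ?_
  refine (Real.rpow_le_rpow_of_nonpos (by positivity) hN (by linarith [hs.1])).trans ?_
  rw [← Real.rpow_natCast, ← Real.rpow_mul (by positivity), ← neg_mul_eq_mul_neg,
    Real.mul_rpow (by positivity) (by positivity)]
  refine mul_le_mul_of_nonneg_right ?_ hp
  exact Real.rpow_le_rpow_of_exponent_ge (by positivity) (by linarith)
    (neg_le_neg (mul_le_mul_of_nonneg_left hs.2 (Nat.cast_nonneg _)))

variable (K) in
lemma exists_farTerm_osc (r : ℝ) (hr : 0 < r) :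
    ∃ C : ℝ, ∀ s ∈ Set.Icc (1 : ℝ) 2, ∀ x y : mixedSpace K, ‖y - x‖ ≤ r →
      |farTerm K s y - farTerm K s x| ≤ C * decay x := by
  obtain ⟨M, hM, hMle⟩ := exists_farTerm_le K
  obtain ⟨C, R, hC, hR, hosc⟩ := exists_oscillation_bound K r hr
  set n := finrank ℚ K with hn
  set R' := 2 * (R + r + 1)
  refine ⟨M * (1 + R') ^ ((n : ℝ) + 1) + C * (2 : ℝ) ^ (n + 1), fun s hs x y hy ↦ ?_⟩
  have hdec : decay x = (1 + ‖x‖) ^ (-((n : ℝ) + 1)) := by
    rw [decay, mixedEmbedding.finrank]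
  have hd : 0 ≤ decay x := decay_nonneg x
  have hbd : ∀ z, farTerm K s z ≤ M := fun z ↦ (hMle z s hs).trans
    (mul_le_of_le_one_right hM (Real.rpow_le_one_of_one_le_of_nonpos
      (le_add_of_nonneg_right (norm_nonneg z))
      (neg_nonpos.mpr (mul_nonneg (Nat.cast_nonneg _) (zero_le_one.trans hs.1)))))
  by_cases hx : ‖x‖ ≤ R'
  · refine le_trans ?_ (mul_le_mul_of_nonneg_right (le_add_of_nonneg_right (by positivity)) hd)
    refine (abs_sub_le_iff.mpr ⟨?_, ?_⟩ : _ ≤ M).trans ?_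
    · linarith [hbd y, farTerm_nonneg s x]
    · linarith [hbd x, farTerm_nonneg s y]
    rw [hdec, mul_assoc, Real.rpow_neg (by positivity), ← div_eq_mul_inv]
    refine le_mul_of_one_le_right hM ?_
    rw [one_le_div (by positivity)]
    exact Real.rpow_le_rpow (by positivity) (by linarith) (by positivity)
  · replace hx := not_le.mp hx
    refine le_trans ?_ (mul_le_mul_of_nonneg_right (le_add_of_nonneg_left (by positivity)) hd)
    have hy1 : ‖x‖ - r ≤ ‖y‖ := by
      have := norm_sub_norm_le x y; rw [norm_sub_rev] at this; linarith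
    have hfy : farTerm K s y = term K s y := if_pos (by linarith)
    have hfx : farTerm K s x = term K s x := if_pos (by linarith)
    have key : ∀ z : mixedSpace K, (1 + ‖x‖) / 2 ≤ ‖z‖ →
        C / ‖z‖ ^ (n + 1) ≤ C * (2 : ℝ) ^ (n + 1) * decay x := by
      intro z hz
      have h0 : (0 : ℝ) < (1 + ‖x‖) / 2 := by positivity
      refine (div_le_div_of_nonneg_left hC (pow_pos h0 _) (pow_le_pow_left₀ h0.le hz _)).trans_eq ?_
      rw [hdec, ← Nat.cast_one (R := ℝ), ← Nat.cast_add, Real.rpow_neg (by positivity),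
        Real.rpow_natCast, Nat.cast_one, div_pow]
      field_simp
    rw [hfy, hfx]
    by_cases hwx : weight K x = 0
    · by_cases hwy : weight K y = 0
      · simp only [term, hwx, hwy, zero_mul, sub_self, abs_zero]; positivity
      · rw [abs_sub_comm]
        refine (hosc y x (by linarith) hwy (by rwa [norm_sub_rev]) s hs).trans (key y ?_)
        linarith
    · exact (hosc x y (by linarith) hwx hy s hs).trans (key x (by linarith))

lemma measurable_farTerm (s : ℝ) : Measurable (farTerm K s) := by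
  have hlog : Measurable (logMap : mixedSpace K → _) := by
    unfold logMap
    exact measurable_pi_iff.mpr fun w ↦ measurable_const.mul
      ((continuous_normAtPlace _).measurable.log.sub <|
        (mixedEmbedding.continuous_norm _).measurable.log.mul measurable_const)
  have hc : Continuous (coordEquiv K) := (coordEquiv K).toLinearMap.continuous_of_finiteDimensional
  have hN : Measurable (mixedEmbedding.norm : mixedSpace K → ℝ) :=
    (mixedEmbedding.continuous_norm K).measurable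
  have hhat : Continuous hat := continuous_const.max (continuous_const.sub continuous_abs)
  have hw : Measurable (weight K) := by
    unfold weight
    refine Measurable.ite (measurableSet_eq_fun hN measurable_const) measurable_const ?_
    exact Finset.measurable_prod _ fun i _ ↦
      (hhat.measurable.comp ((measurable_pi_apply i).comp (hc.measurable.comp hlog)))
  unfold farTerm
  refine Measurable.ite (measurableSet_le measurable_const measurable_norm) ?_ measurable_const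
  exact hw.mul (hN.pow_const _)

lemma integrable_farTerm {s : ℝ} (hs : s ∈ Set.Ioc (1 : ℝ) 2) :
    Integrable (farTerm K s) volume := by
  obtain ⟨M, hM, hMle⟩ := exists_farTerm_le K
  have : Integrable (fun x : mixedSpace K ↦ M * (1 + ‖x‖) ^ (-((finrank ℚ K : ℝ) * s))) volume := by
    refine (integrable_one_add_norm ?_).const_mul M
    rw [mixedEmbedding.finrank]
    exact lt_mul_of_one_lt_right (Nat.cast_pos.mpr finrank_pos) hs.1
  refine this.mono' (measurable_farTerm s).aestronglyMeasurable (Eventually.of_forall fun x ↦ ?_)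
  rw [Real.norm_of_nonneg (farTerm_nonneg s x)]
  exact hMle x s ⟨hs.1.le, hs.2⟩

variable (J : (Ideal (𝓞 K))⁰)

/-- The lattice of `J`. -/
abbrev lat : Submodule ℤ (mixedSpace K) :=
  mixedEmbedding.idealLattice K (FractionalIdeal.mk0 K J)

lemma mem_lat {x : mixedSpace K} :
    x ∈ lat J ↔ ∃ a : 𝓞 K, a ∈ J.1 ∧ mixedEmbedding K (a : K) = x := by
  rw [mem_idealLattice]
  constructor
  · rintro ⟨y, hy, rfl⟩
    simp only [FractionalIdeal.coe_mk0, FractionalIdeal.mem_coeIdeal,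
      SetLike.mem_coe] at hy
    obtain ⟨a, ha, rfl⟩ := hy
    exact ⟨a, ha, rfl⟩
  · rintro ⟨a, ha, rfl⟩
    refine ⟨(a : K), ?_, rfl⟩
    simp only [FractionalIdeal.coe_mk0, FractionalIdeal.mem_coeIdeal,
      SetLike.mem_coe]
    exact ⟨a, ha, rfl⟩

lemma one_le_norm_of_mem_lat {x : mixedSpace K} (hx : x ∈ lat J) (h0 : x ≠ 0) :
    1 ≤ mixedEmbedding.norm x := by
  obtain ⟨a, -, rfl⟩ := (mem_lat J).mp hx
  have ha : a ≠ 0 := by rintro rfl; simp at h0
  rw [norm_eq_norm, ← Algebra.coe_norm_int, ← Int.cast_abs, Rat.cast_intCast]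
  exact_mod_cast Int.one_le_abs (Algebra.norm_ne_zero_iff.mpr ha)

lemma term_le_one_of_mem_lat {s : ℝ} (hs : 0 ≤ s) {x : mixedSpace K} (hx : x ∈ lat J) :
    term K s x ≤ 1 := by
  by_cases h0 : x = 0
  · rw [h0, term_zero]; exact zero_le_one
  · exact (mul_le_of_le_one_left (Real.rpow_nonneg (mixedEmbedding.norm_nonneg x) _)
      (weight_le_one x)).trans (Real.rpow_le_one_of_one_le_of_nonpos
        (one_le_norm_of_mem_lat J hx h0) (neg_nonpos.mpr hs))

lemma finite_small : {z : lat J | ¬ 1 ≤ ‖(z : mixedSpace K)‖}.Finite := by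
  have : DiscreteTopology (lat J).toAddSubgroup := (inferInstance : DiscreteTopology (lat J))
  have h := Metric.finite_isBounded_inter_isClosed
    (SetLike.isDiscrete_iff_discreteTopology.mpr (inferInstance : DiscreteTopology (lat J)))
    (Metric.isBounded_closedBall (x := (0 : mixedSpace K)) (r := 1))
    (AddSubgroup.isClosed_of_discrete (H := (lat J).toAddSubgroup))
  refine (h.preimage Subtype.val_injective.injOn).subset fun z hz ↦ ?_
  exact ⟨mem_closedBall_zero_iff.mpr (not_le.mp hz).le, z.2⟩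

lemma summable_farTerm {s : ℝ} (hs : s ∈ Set.Ioc (1 : ℝ) 2) :
    Summable fun z : lat J ↦ farTerm K s z := by
  obtain ⟨M, -, hMle⟩ := exists_farTerm_le K
  refine Summable.of_nonneg_of_le (fun z ↦ farTerm_nonneg s _)
    (fun z ↦ hMle z s ⟨hs.1.le, hs.2⟩) ((summable_one_add_norm_rpow _ ?_).mul_left M)
  rw [mixedEmbedding.finrank]
  exact lt_mul_of_one_lt_right (Nat.cast_pos.mpr finrank_pos) hs.1

lemma summable_term {s : ℝ} (hs : s ∈ Set.Ioc (1 : ℝ) 2) :
    Summable fun z : lat J ↦ term K s z := by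
  refine (summable_farTerm J hs).congr_cofinite ?_
  filter_upwards [(finite_small J).compl_mem_cofinite] with z hz
  exact if_pos (not_not.mp hz)

lemma exists_small_bound :
    ∃ B : ℝ, ∀ s ∈ Set.Ioc (1 : ℝ) 2,
      |(∑' z : lat J, term K s z) - ∑' z : lat J, farTerm K s z| ≤ B := by
  set S := (finite_small J).toFinset
  refine ⟨S.card, fun s hs ↦ ?_⟩
  rw [← Summable.tsum_sub (summable_term J hs) (summable_farTerm J hs),
    tsum_eq_sum (s := S) fun z hz ↦ by
      simp only [S, Set.Finite.mem_toFinset, Set.mem_ofPred_eq, not_not] at hz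
      rw [farTerm, if_pos hz, sub_self]]
  refine (Finset.abs_sum_le_sum_abs _ _).trans ((Finset.sum_le_card_nsmul _ _ 1 fun z hz ↦ ?_).trans
    (by simp))
  have hz' : ¬ 1 ≤ ‖(z : mixedSpace K)‖ := (finite_small J).mem_toFinset.mp hz
  rw [farTerm, if_neg hz', sub_zero, abs_of_nonneg (term_nonneg s _)]
  exact term_le_one_of_mem_lat J (by linarith [hs.1]) z.2

variable (K) in
lemma exists_approx :
    ∃ c : ℝ, 0 < c ∧ ∀ J : (Ideal (𝓞 K))⁰, ∃ B : ℝ, ∀ s ∈ Set.Ioc (1 : ℝ) 2,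
      |c * (Ideal.absNorm J.1 : ℝ) * (∑' z : lat J, term K s z) -
        ∫ x, farTerm K s x| ≤ B := by
  refine ⟨(2⁻¹) ^ nrComplexPlaces K * √|discr K|, mul_pos (by positivity)
    (Real.sqrt_pos_of_pos <| abs_pos.mpr (Int.cast_ne_zero.mpr (discr_ne_zero K))), fun J ↦ ?_⟩
  set c : ℝ := (2⁻¹) ^ nrComplexPlaces K * √|discr K| * (Ideal.absNorm J.1 : ℝ)
  obtain ⟨r, hr, hB⟩ := exists_bound_tsum_sub_integral (lat J) volume
  obtain ⟨C, hC⟩ := exists_farTerm_osc K r hr
  obtain ⟨B, hB⟩ := hB C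
  obtain ⟨B', hB'⟩ := exists_small_bound J
  have hcov : ZLattice.covolume (lat J) = c := by
    rw [covolume_idealLattice, FractionalIdeal.coe_mk0, FractionalIdeal.coeIdeal_absNorm,
      Rat.cast_natCast]
    ring
  refine ⟨B + c * B', fun s hs ↦ ?_⟩
  have h := hB (farTerm K s) (integrable_farTerm hs) (summable_farTerm J hs)
    (hC s ⟨hs.1.le, hs.2⟩)
  rw [hcov] at h
  have h' := mul_le_mul_of_nonneg_left (hB' s hs) (by positivity : 0 ≤ c)
  rw [← abs_of_nonneg (by positivity : 0 ≤ c), ← abs_mul, abs_of_nonneg (by positivity : 0 ≤ c),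
    mul_sub] at h'
  have := abs_sub_le (c * ∑' z : lat J, term K s z) (c * ∑' z : lat J, farTerm K s z)
    (∫ x, farTerm K s x)
  linarith

lemma unitSMul_mem_lat (u : (𝓞 K)ˣ) {x : mixedSpace K} (hx : x ∈ lat J) : u • x ∈ lat J := by
  obtain ⟨a, ha, rfl⟩ := (mem_lat J).mp hx
  exact (mem_lat J).mpr ⟨u * a, J.1.mul_mem_left _ ha, by simp [unitSMul_smul]⟩

/-- `idealSet` times exponents maps into the lattice. -/
def toLat (p : idealSet K J × (Fin (Units.rank K) → ℤ)) : lat J :=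
  ⟨unitOfExp K p.2 • (p.1 : mixedSpace K), unitSMul_mem_lat J _ p.1.2.2⟩

lemma toLat_injective : Function.Injective (toLat J) := by
  rintro ⟨a, e⟩ ⟨b, f⟩ h
  simp only [toLat, Subtype.ext_iff] at h
  have hb : ((unitOfExp K f)⁻¹ * unitOfExp K e) • (a : mixedSpace K) = b := by
    rw [mul_smul, h, inv_smul_smul]
  have ht := (unit_smul_mem_iff_mem_torsion a.2.1 _).mp (hb ▸ b.2.1)
  rw [← Units.dirichletUnitTheorem.logEmbedding_eq_zero_iff, ofMul_mul, ofMul_inv, map_add, map_neg,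
    neg_add_eq_zero] at ht
  have hef : (fun i ↦ (f i : ℝ)) = fun i ↦ (e i : ℝ) := by
    rw [← coordEquiv_unitOfExp, ← coordEquiv_unitOfExp, ht]
  have hfe : f = e := funext fun i ↦ by exact_mod_cast congr_fun hef i
  subst hfe
  rw [inv_mul_cancel, one_smul] at hb
  exact Prod.ext (Subtype.ext hb) rfl

lemma exists_toLat_eq {z : lat J} (hz : (z : mixedSpace K) ≠ 0) : ∃ p, toLat J p = z := by
  have hN : mixedEmbedding.norm (z : mixedSpace K) ≠ 0 := by
    linarith [one_le_norm_of_mem_lat J z.2 hz]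
  obtain ⟨u, hu⟩ := exists_unit_smul_mem hN
  obtain ⟨⟨ζ, e⟩, he, -⟩ := Units.exist_unique_eq_mul_prod K u⁻¹
  have hmem : ((ζ : (𝓞 K)ˣ) * u) • (z : mixedSpace K) ∈ idealSet K J :=
    ⟨by rw [mul_smul]; exact torsion_smul_mem_of_mem hu ζ.2, unitSMul_mem_lat J _ z.2⟩
  refine ⟨(⟨_, hmem⟩, e), Subtype.ext ?_⟩
  show unitOfExp K e • (((ζ : (𝓞 K)ˣ) * u) • (z : mixedSpace K)) = z
  rw [← mul_smul]
  have : unitOfExp K e * ((ζ : (𝓞 K)ˣ) * u) = 1 := by
    rw [← mul_assoc, mul_comm (unitOfExp K e)]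
    show (ζ : (𝓞 K)ˣ) * unitOfExp K e * u = 1
    rw [unitOfExp, ← he, inv_mul_cancel]
  rw [this, one_smul]

lemma hasSum_idealSet {s : ℝ} (hs : s ∈ Set.Ioc (1 : ℝ) 2) :
    HasSum (fun a : idealSet K J ↦ mixedEmbedding.norm (a : mixedSpace K) ^ (-s))
      (∑' z : lat J, term K s z) := by
  have h := ((toLat_injective J).hasSum_iff (fun z hz ↦ ?_)).mpr (summable_term J hs).hasSum
  · refine h.prod_fiberwise fun a ↦ ?_
    have ha : mixedEmbedding.norm (a : mixedSpace K) ≠ 0 := (norm_pos_of_mem a.2.1).ne'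
    have := (hasSum_weight_unitSMul ha).mul_right (mixedEmbedding.norm (a : mixedSpace K) ^ (-s))
    rw [one_mul] at this
    refine this.congr_fun fun e ↦ ?_
    show term K s (unitOfExp K e • (a : mixedSpace K)) = _
    rw [term, norm_unit_smul]
  · by_cases h0 : (z : mixedSpace K) = 0
    · show term K s (z : mixedSpace K) = 0
      rw [h0, term_zero]
    · exact absurd (exists_toLat_eq J h0) hz

/-- Fibres of the norm on `idealSet` and on principal ideals times torsion. -/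
def normFiberEquiv (n : ℕ) :
    {a : idealSet K J // intNorm (idealSetEquiv K J a).1 = n} ≃
      {p : {I : (Ideal (𝓞 K))⁰ // (J : Ideal (𝓞 K)) ∣ I ∧
        Submodule.IsPrincipal (I : Ideal (𝓞 K))} × (Units.torsion K) //
          Ideal.absNorm p.1.1.1 = n} :=
  (Equiv.subtypeEquivRight fun a ↦ by rw [← intNorm_idealSetEquiv_apply, Nat.cast_inj]).trans <|
    (idealSetEquivNorm K J n).trans <|
      ((Equiv.prodSubtypeFstEquivSubtypeProd
        (p := fun I : {I : (Ideal (𝓞 K))⁰ // (J : Ideal (𝓞 K)) ∣ I ∧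
            Submodule.IsPrincipal (I : Ideal (𝓞 K))} ↦ Ideal.absNorm I.1.1 = n)).trans
        (Equiv.prodCongrLeft fun _ ↦ ((Equiv.subtypeSubtypeEquivSubtypeInter _
          (fun I : (Ideal (𝓞 K))⁰ ↦ Ideal.absNorm I.1 = n)).trans
          (Equiv.subtypeEquivRight fun _ ↦ and_assoc)))).symm

/-- `idealSet` against principal ideals divisible by `J` times torsion. -/
def idealSetEquivPrincipal :
    idealSet K J ≃ {I : (Ideal (𝓞 K))⁰ // (J : Ideal (𝓞 K)) ∣ I ∧
      Submodule.IsPrincipal (I : Ideal (𝓞 K))} × (Units.torsion K) :=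
  Equiv.ofFiberEquiv (normFiberEquiv J)

lemma absNorm_idealSetEquivPrincipal (a : idealSet K J) :
    (Ideal.absNorm (idealSetEquivPrincipal J a).1.1.1 : ℝ) =
      mixedEmbedding.norm (a : mixedSpace K) := by
  rw [← intNorm_idealSetEquiv_apply, Nat.cast_inj]
  exact Equiv.ofFiberEquiv_map (normFiberEquiv J) a

lemma hasSum_principal {s : ℝ} (hs : s ∈ Set.Ioc (1 : ℝ) 2) :
    HasSum (fun I : {I : (Ideal (𝓞 K))⁰ // (J : Ideal (𝓞 K)) ∣ I ∧
        Submodule.IsPrincipal (I : Ideal (𝓞 K))} ↦ (Ideal.absNorm I.1.1 : ℝ) ^ (-s))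
      ((∑' z : lat J, term K s z) / Units.torsionOrder K) := by
  set f := fun I : {I : (Ideal (𝓞 K))⁰ // (J : Ideal (𝓞 K)) ∣ I ∧
        Submodule.IsPrincipal (I : Ideal (𝓞 K))} ↦ (Ideal.absNorm I.1.1 : ℝ) ^ (-s)
  have h1 : HasSum (fun p : _ × Units.torsion K ↦ f p.1) (∑' z : lat J, term K s z) := by
    rw [← (idealSetEquivPrincipal J).hasSum_iff]
    refine (hasSum_idealSet J hs).congr_fun fun a ↦ ?_
    simp only [f, Function.comp_apply, absNorm_idealSetEquivPrincipal]
  have : Fintype (Units.torsion K) := Fintype.ofFinite _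
  have h2 : HasSum (fun I ↦ (Units.torsionOrder K : ℝ) * f I) (∑' z : lat J, term K s z) := by
    refine h1.prod_fiberwise fun I ↦ ?_
    have h := hasSum_fintype (fun _ : Units.torsion K ↦ f I)
    rw [Finset.sum_const, Finset.card_univ, ← Nat.card_eq_fintype_card, nsmul_eq_mul] at h
    exact h
  have h0 : (Units.torsionOrder K : ℝ) ≠ 0 := Nat.cast_ne_zero.mpr (Units.torsionOrder_ne_zero K)
  simpa [h0, mul_comm, mul_div_assoc] using h2.div_const (Units.torsionOrder K : ℝ)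

lemma hasSum_classZeta {C : ClassGroup (𝓞 K)} (hJ : ClassGroup.mk0 J = C⁻¹) {s : ℝ}
    (hs : s ∈ Set.Ioc (1 : ℝ) 2) :
    HasSum (fun I : {I : (Ideal (𝓞 K))⁰ // ClassGroup.mk0 I = C} ↦
        (Ideal.absNorm I.1.1 : ℝ) ^ (-s))
      ((Ideal.absNorm J.1 : ℝ) ^ s * ((∑' z : lat J, term K s z) / Units.torsionOrder K)) := by
  let e : {I : (Ideal (𝓞 K))⁰ // ClassGroup.mk0 I = C} ≃
      {I : (Ideal (𝓞 K))⁰ // (J : Ideal (𝓞 K)) ∣ I ∧ Submodule.IsPrincipal (I : Ideal (𝓞 K))} :=
    Equiv.ofBijective (fun I ↦ ⟨J * I.1, ⟨I.1.1, by simp⟩, by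
        rw [← ClassGroup.mk0_eq_one_iff (SetLike.coe_mem _), map_mul, hJ, I.2, inv_mul_cancel]⟩)
      ⟨fun a b h ↦ by
        have := congrArg (fun x ↦ (x.1 : Ideal (𝓞 K))) h
        simp only [Submonoid.coe_mul] at this
        exact Subtype.ext (Subtype.ext (mul_left_cancel₀ (nonZeroDivisors.coe_ne_zero J) this)),
      fun ⟨⟨I, hI⟩, ⟨I', hI'⟩, hp⟩ ↦ by
        have h' : I' ∈ (Ideal (𝓞 K))⁰ := mem_nonZeroDivisors_of_ne_zero fun h ↦
          nonZeroDivisors.ne_zero hI (by rw [show I = J.1 * I' from hI', h, mul_zero])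
        have heq : J * ⟨I', h'⟩ = (⟨I, hI⟩ : (Ideal (𝓞 K))⁰) := Subtype.ext hI'.symm
        refine ⟨⟨⟨I', h'⟩, ?_⟩, Subtype.ext heq⟩
        have h1 := (ClassGroup.mk0_eq_one_iff hI).mpr hp
        rw [← heq, map_mul, hJ, inv_mul_eq_one] at h1
        exact h1.symm⟩
  refine ((e.hasSum_iff.mpr (hasSum_principal J hs)).mul_left _).congr_fun fun I ↦ ?_
  show _ = (Ideal.absNorm J.1 : ℝ) ^ s * (Ideal.absNorm ((J * I.1 : (Ideal (𝓞 K))⁰) : Ideal (𝓞 K)) : ℝ) ^ (-s)
  rw [Submonoid.coe_mul, map_mul, Nat.cast_mul]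
  have h0 : (0 : ℝ) < Ideal.absNorm J.1 := by
    exact_mod_cast Ideal.absNorm_pos_of_nonZeroDivisors J
  rw [Real.mul_rpow h0.le (Nat.cast_nonneg _), ← mul_assoc, ← Real.rpow_add h0, add_neg_cancel,
    Real.rpow_zero, one_mul]

variable (K)

lemma summable_classZeta (C : ClassGroup (𝓞 K)) {s : ℝ} (hs : s ∈ Set.Ioc (1 : ℝ) 2) :
    Summable fun I : {I : (Ideal (𝓞 K))⁰ // ClassGroup.mk0 I = C} ↦
      (Ideal.absNorm I.1.1 : ℝ) ^ (-s) := by
  obtain ⟨J, hJ⟩ := ClassGroup.mk0_surjective C⁻¹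
  exact (hasSum_classZeta J hJ hs).summable

lemma hasSum_idealZeta {s : ℝ} (hs : s ∈ Set.Ioc (1 : ℝ) 2) :
    HasSum (fun I : (Ideal (𝓞 K))⁰ ↦ (Ideal.absNorm I.1 : ℝ) ^ (-s))
      (∑ C : ClassGroup (𝓞 K), classZeta K C s) := by
  refine (Equiv.sigmaFiberEquiv (ClassGroup.mk0 : (Ideal (𝓞 K))⁰ → _)).hasSum_iff.mp ?_
  exact (hasSum_fintype _).sigma_of_hasSum (fun C ↦ (summable_classZeta K C hs).hasSum)
    ((summable_sigma_of_nonneg fun p ↦ Real.rpow_nonneg (Nat.cast_nonneg _) _).mpr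
      ⟨fun C ↦ summable_classZeta K C hs, Summable.of_finite⟩)

lemma classZeta_nonneg (C : ClassGroup (𝓞 K)) (s : ℝ) : 0 ≤ classZeta K C s :=
  tsum_nonneg fun _ ↦ Real.rpow_nonneg (Nat.cast_nonneg _) _

lemma dedekindZeta_eq_idealZeta {s : ℝ} (hs : s ∈ Set.Ioc (1 : ℝ) 2) :
    dedekindZeta K (s : ℂ) = (idealZeta K s : ℂ) := by
  have h := (hasSum_idealZeta K hs).summable.hasSum
  rw [show (∑' I : (Ideal (𝓞 K))⁰, (Ideal.absNorm I.1 : ℝ) ^ (-s)) = idealZeta K s from rfl] at h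
  rw [← (Equiv.sigmaFiberEquiv fun I : (Ideal (𝓞 K))⁰ ↦ Ideal.absNorm I.1).hasSum_iff] at h
  have hfin : ∀ n : ℕ, Finite {I : (Ideal (𝓞 K))⁰ // Ideal.absNorm I.1 = n} := fun n ↦ by
    have := (Ideal.finite_setOfPred_absNorm_eq (S := 𝓞 K) n).to_subtype
    exact Finite.of_injective
      (fun I : {I : (Ideal (𝓞 K))⁰ // Ideal.absNorm I.1 = n} ↦
        (⟨I.1.1, I.2⟩ : {J : Ideal (𝓞 K) | Ideal.absNorm J = n}))
      (fun a b h ↦ Subtype.ext (Subtype.ext (congrArg (Subtype.val) h :)))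
  have : ∀ n : ℕ, Fintype {I : (Ideal (𝓞 K))⁰ // Ideal.absNorm I.1 = n} := fun n ↦
    @Fintype.ofFinite _ (hfin n)
  have h' : HasSum (fun n : ℕ ↦
      (Nat.card {I : (Ideal (𝓞 K))⁰ // Ideal.absNorm I.1 = n} : ℝ) * (n : ℝ) ^ (-s))
      (idealZeta K s) := by
    refine h.sigma fun n ↦ ?_
    have hf := hasSum_fintype (fun _ : {I : (Ideal (𝓞 K))⁰ // Ideal.absNorm I.1 = n} ↦ (n : ℝ) ^ (-s))
    rw [Finset.sum_const, Finset.card_univ, ← Nat.card_eq_fintype_card, nsmul_eq_mul] at hf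
    refine hf.congr_fun fun I ↦ ?_
    show (Ideal.absNorm I.1.1 : ℝ) ^ (-s) = _
    rw [I.2]
  rw [show (idealZeta K s : ℂ) = Complex.ofRealCLM (idealZeta K s) from rfl,
    ← (h'.mapL Complex.ofRealCLM).tsum_eq, dedekindZeta, LSeries]
  refine tsum_congr fun n ↦ ?_
  rcases eq_or_ne n 0 with rfl | hn
  · simp [LSeries.term, Real.zero_rpow (by linarith [hs.1] : -s ≠ 0)]
  · rw [LSeries.term_of_ne_zero hn, Complex.ofRealCLM_apply, Complex.ofReal_mul,
      Complex.ofReal_cpow (Nat.cast_nonneg n), Complex.ofReal_natCast, Complex.ofReal_natCast,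
      Complex.ofReal_neg, Complex.cpow_neg, div_eq_mul_inv]
    congr 2
    refine Nat.card_congr ⟨fun I ↦ ⟨⟨I.1, mem_nonZeroDivisors_of_ne_zero fun h ↦ hn ?_⟩, I.2⟩,
      fun I ↦ ⟨I.1.1, I.2⟩, fun _ ↦ rfl, fun _ ↦ rfl⟩
    rw [← I.2, h]; simp

/-- `idealZeta` has a simple pole at `1`. -/
theorem tendsto_sub_one_mul_idealZeta :
    Tendsto (fun s : ℝ ↦ (s - 1) * idealZeta K s) (𝓝[>] 1) (𝓝 (dedekindZeta_residue K)) := by
  have h := (Complex.continuous_re.tendsto _).comp (tendsto_sub_one_mul_dedekindZeta_nhdsGT K)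
  rw [Complex.ofReal_re] at h
  refine h.congr' ?_
  filter_upwards [Ioc_mem_nhdsGT one_lt_two] with s hs
  rw [Function.comp_apply, dedekindZeta_eq_idealZeta K hs, ← Complex.ofReal_one,
    ← Complex.ofReal_sub, ← Complex.ofReal_mul, Complex.ofReal_re]

/-- Two partial zeta functions differ by a bounded amount near `1`. -/
theorem exists_classZeta_sub_le :
    ∃ B : ℝ, ∀ᶠ s : ℝ in 𝓝[>] 1, ∀ C C' : ClassGroup (𝓞 K),
      |classZeta K C s - classZeta K C' s| ≤ B := by
  obtain ⟨c, hc, happ⟩ := exists_approx K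
  set w : ℝ := (Units.torsionOrder K : ℝ)
  have hw : 0 < w := Nat.cast_pos.mpr (Units.torsionOrder_pos K)
  set I : ℝ → ℝ := fun s ↦ (∫ x, farTerm K s x) / (w * c)
  have hI : ∀ s, 0 ≤ I s := fun s ↦ div_nonneg (integral_nonneg (farTerm_nonneg s)) (by positivity)
  have key : ∀ C : ClassGroup (𝓞 K), ∃ a B : ℝ, 1 ≤ a ∧ ∀ s ∈ Set.Ioc (1 : ℝ) 2,
      |classZeta K C s - a ^ (s - 1) * I s| ≤ B := by
    intro C
    obtain ⟨J, hJ⟩ := ClassGroup.mk0_surjective C⁻¹
    obtain ⟨B, hB⟩ := happ J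
    have ha : (1 : ℝ) ≤ Ideal.absNorm J.1 := by
      exact_mod_cast Ideal.absNorm_pos_of_nonZeroDivisors J
    refine ⟨_, (Ideal.absNorm J.1 : ℝ) * |B| / (w * c), ha, fun s hs ↦ ?_⟩
    set a : ℝ := (Ideal.absNorm J.1 : ℝ)
    have ha0 : 0 < a := zero_lt_one.trans_le ha
    rw [show classZeta K C s = _ from (hasSum_classZeta J hJ hs).tsum_eq]
    have : a ^ s * ((∑' z : lat J, term K s z) / w) - a ^ (s - 1) * I s =
        a ^ (s - 1) * ((c * a * (∑' z : lat J, term K s z) - ∫ x, farTerm K s x) / (w * c)) := by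
      rw [show a ^ s = a ^ (s - 1) * a by
        rw [← Real.rpow_add_one ha0.ne', sub_add_cancel]]
      simp only [I]
      field_simp
    rw [this, abs_mul, abs_div, abs_of_nonneg (Real.rpow_nonneg ha0.le _),
      abs_of_pos (by positivity : 0 < w * c), ← mul_div_assoc]
    refine div_le_div_of_nonneg_right ?_ (by positivity)
    refine mul_le_mul ?_ ((hB s hs).trans (le_abs_self B)) (abs_nonneg _) ha0.le
    calc a ^ (s - 1) ≤ a ^ (1 : ℝ) := Real.rpow_le_rpow_of_exponent_le ha (by linarith [hs.2])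
      _ = a := Real.rpow_one a
  choose a B ha hB using key
  set A := dedekindZeta_residue K + 1
  have hev : ∀ᶠ s : ℝ in 𝓝[>] 1, (s - 1) * idealZeta K s ≤ A :=
    (tendsto_sub_one_mul_idealZeta K).eventually (Iic_mem_nhds (lt_add_one _))
  set D : ClassGroup (𝓞 K) → ℝ := fun C ↦ B C + a C * |Real.log (a C)| * (A + |B 1|)
  refine ⟨2 * ∑ C, |D C|, ?_⟩
  filter_upwards [hev, Ioc_mem_nhdsGT one_lt_two] with s hs1 hs
  have hone : ∀ C, (1 : ℝ) ≤ a C ^ (s - 1) := fun C ↦
    Real.one_le_rpow (ha C) (by linarith [hs.1])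
  have hIle : (s - 1) * I s ≤ A + |B 1| := by
    have h1 : classZeta K 1 s ≤ idealZeta K s := by
      rw [idealZeta, (hasSum_idealZeta K hs).tsum_eq]
      exact Finset.single_le_sum (fun C _ ↦ classZeta_nonneg K C s) (Finset.mem_univ 1)
    have h2 := (abs_le.mp (hB 1 s hs)).1
    have h3 := le_mul_of_one_le_left (hI s) (hone 1)
    calc (s - 1) * I s ≤ (s - 1) * (idealZeta K s + |B 1|) :=
          mul_le_mul_of_nonneg_left (by linarith [le_abs_self (B 1)]) (by linarith [hs.1])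
      _ ≤ A + |B 1| := by
          rw [mul_add]
          exact add_le_add hs1 (mul_le_of_le_one_left (abs_nonneg _) (by linarith [hs.2]))
  have hC : ∀ C, |classZeta K C s - I s| ≤ |D C| := fun C ↦ by
    refine le_trans ?_ (le_abs_self (D C))
    have h1 := abs_sub_le (classZeta K C s) (a C ^ (s - 1) * I s) (I s)
    refine h1.trans (add_le_add (hB C s hs) ?_)
    rw [show a C ^ (s - 1) * I s - I s = (a C ^ (s - 1) - 1) * I s by ring, abs_mul,
      abs_of_nonneg (hI s)]
    have h2 : |a C ^ (s - 1) - 1| ≤ a C * (|Real.log (a C)| * (s - 1)) := by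
      rw [Real.rpow_def_of_pos (zero_lt_one.trans_le (ha C)),
        show ∀ t : ℝ, |Real.exp t - 1| = |Real.exp t - Real.exp 0| from fun t ↦ by rw [Real.exp_zero]]
      refine (abs_exp_sub_exp_le _ _).trans (mul_le_mul ?_ ?_ (abs_nonneg _)
        (zero_le_one.trans (ha C)))
      · rw [Real.exp_zero, ← Real.rpow_def_of_pos (zero_lt_one.trans_le (ha C))]
        refine max_le ?_ (ha C)
        calc a C ^ (s - 1) ≤ a C ^ (1 : ℝ) :=
              Real.rpow_le_rpow_of_exponent_le (ha C) (by linarith [hs.2])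
          _ = a C := Real.rpow_one _
      · rw [sub_zero, abs_mul, abs_of_nonneg (by linarith [hs.1] : (0 : ℝ) ≤ s - 1)]
    refine (mul_le_mul_of_nonneg_right h2 (hI s)).trans ?_
    rw [show a C * (|Real.log (a C)| * (s - 1)) * I s =
      a C * |Real.log (a C)| * ((s - 1) * I s) by ring]
    exact mul_le_mul_of_nonneg_left hIle (mul_nonneg (zero_le_one.trans (ha C)) (abs_nonneg _))
  intro C C'
  have h1 := Finset.single_le_sum (fun C _ ↦ abs_nonneg (D C)) (Finset.mem_univ C)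
  have h2 := Finset.single_le_sum (fun C _ ↦ abs_nonneg (D C)) (Finset.mem_univ C')
  have h3 := hC C'
  rw [abs_sub_comm] at h3
  linarith [abs_sub_le (classZeta K C s) (I s) (classZeta K C' s), hC C]

end Fermat.Agent.ClassField
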