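import Fermat.Agent.ClassField.EigenTrivial
import Mathlib.NumberTheory.NumberField.Cyclotomic.Three
import Mathlib.NumberTheory.NumberField.Cyclotomic.PID

/-!
The case `p = 3`: `ℚ(ζ₃)` has class number one and the eigen-units are cubes.
-/

set_option autoImplicit false

noncomputable section

open NumberField
open scoped Pointwise

namespace Fermat.Agent.ClassField

variable {K : Type} [Field K] [NumberField K] [IsCyclotomicExtension {3} ℚ K] [Fact (Nat.Prime 3)]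
  {ζ : 𝓞 K} (hζ : IsPrimitiveRoot ζ 3)

omit [Fact (Nat.Prime 3)] in
include hζ in
lemma unit_three_cases (u : (𝓞 K)ˣ) :
    ∃ k : ℕ, (u : 𝓞 K) = ζ ^ k ∨ (u : 𝓞 K) = -ζ ^ k := by
  have hK : IsPrimitiveRoot (ζ : K) 3 :=
    hζ.map_of_injective (f := algebraMap (𝓞 K) K) RingOfIntegers.coe_injective
  have hint : hK.toInteger = ζ := RingOfIntegers.ext rfl
  have h := IsCyclotomicExtension.Rat.Three.Units.mem hK u
  simp only [List.mem_cons, List.not_mem_nil, or_false] at h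
  rcases h with rfl | rfl | rfl | rfl | rfl | rfl
  · exact ⟨0, Or.inl (by simp)⟩
  · exact ⟨0, Or.inr (by simp)⟩
  · exact ⟨1, Or.inl (by simp [hint])⟩
  · exact ⟨1, Or.inr (by simp [hint])⟩
  · exact ⟨2, Or.inl (by simp [hint])⟩
  · exact ⟨2, Or.inr (by simp [hint])⟩

omit [Fact (Nat.Prime 3)] in
include hζ in
lemma unit_three_pow_six (u : (𝓞 K)ˣ) : (u : 𝓞 K) ^ 6 = 1 := by
  obtain ⟨k, h | h⟩ := unit_three_cases hζ u <;> rw [h]
  all_goals
    ring_nf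
    rw [show k * 6 = 3 * (2 * k) by ring, pow_mul, hζ.pow_eq_one, one_pow]

/-- For `p = 3` an element of the eigenspace with divisor a cube is a cube. -/
theorem exists_pow_eq_of_eigen_three {α : 𝓞 K} (hα : α ≠ 0) (heig : IsSqEigen hζ (α : K))
    (hdiv : ∀ R : Ideal (𝓞 K), R.IsPrime → R ≠ ⊥ → 3 ∣ idealExp R (Ideal.span {α})) :
    ∃ x : K, x ^ 3 = (α : K) := by
  have := IsCyclotomicExtension.Rat.three_pid K
  obtain ⟨J, hJ⟩ := idealExp_eq_of_span_eq_pow (p := 3) (by simpa using hα) hdiv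
  obtain ⟨b, rfl⟩ := (IsPrincipalIdealRing.principal J).principal
  rw [Ideal.submodule_span_eq, Ideal.span_singleton_pow, Ideal.span_singleton_eq_span_singleton]
    at hJ
  obtain ⟨w, hw⟩ := hJ.symm
  have hb : b ≠ 0 := fun h ↦ hα (by rw [← hw, h]; simp)
  obtain ⟨σ, hσ⟩ := (cycChar_bijective hζ).2 (ZMod.unitOfCoprime 2 (by norm_num))
  have hsq : sqExp hζ σ = 1 := by
    rw [sqExp, hσ, ZMod.coe_unitOfCoprime]; rfl
  have hσζ : σ • ζ = ζ ^ 2 := by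
    rw [smul_zeta hζ, hσ, ZMod.coe_unitOfCoprime]; rfl
  obtain ⟨y, hy0, hy⟩ := heig σ
  rw [hsq, pow_one] at hy
  have hα' : (α : K) = (b : K) ^ 3 * (w : 𝓞 K) := by
    rw [← hw]; push_cast; rfl
  -- the unit is inverted by `σ`
  have hinv : (w : 𝓞 K) * σ • (w : 𝓞 K) = 1 := by
    obtain ⟨k, h | h⟩ := unit_three_cases hζ w <;> rw [h]
    · rw [smul_pow', hσζ, ← mul_pow, ← pow_succ', hζ.pow_eq_one, one_pow]
    · rw [smul_neg, smul_pow', hσζ, neg_mul_neg, ← mul_pow, ← pow_succ', hζ.pow_eq_one, one_pow]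
  have hb' : (σ • b : 𝓞 K) ≠ 0 := fun h ↦ hb ((smul_eq_zero_iff_eq σ).mp h)
  have hbK : (b : K) ≠ 0 := RingOfIntegers.coe_ne_zero_iff.mpr hb
  have hσb : σ (b : K) ≠ 0 := RingOfIntegers.coe_ne_zero_iff.mpr hb'
  have hσw : σ ((w : 𝓞 K) : K) ≠ 0 := fun h ↦ w.ne_zero (RingOfIntegers.coe_eq_zero_iff.mp
    (σ.injective (h.trans (map_zero σ).symm)))
  have hwσ : ((w : 𝓞 K) : K) * σ ((w : 𝓞 K) : K) = 1 :=
    congrArg (algebraMap (𝓞 K) K) hinv |>.trans (map_one _)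
  have hpow : (y * (b : K) / σ (b : K)) ^ 3 = σ ((w : 𝓞 K) : K) ^ 2 := by
    rw [hα', map_mul, map_pow] at hy
    field_simp
    linear_combination -(y ^ 3 * (b : K) ^ 3) * hwσ - σ ((w : 𝓞 K) : K) * hy
  obtain ⟨v, hv⟩ := exists_unit_of_pow_eq (p := 3) (y := y * (b : K) / σ (b : K))
    (w := unitAct σ w ^ 2) (by rw [hpow]; push_cast; rfl)
  have hv6 : ((v : 𝓞 K) : K) ^ 6 = 1 := by
    simpa using congrArg (algebraMap (𝓞 K) K) (unit_three_pow_six hζ v)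
  have hw4 : σ ((w : 𝓞 K) : K) ^ 4 = 1 := by
    have h6 : (y * (b : K) / σ (b : K)) ^ 6 = 1 := hv ▸ hv6
    linear_combination h6 - ((y * (b : K) / σ (b : K)) ^ 3 + σ ((w : 𝓞 K) : K) ^ 2) * hpow
  have hw6 : σ ((w : 𝓞 K) : K) ^ 6 = 1 := by
    simpa using congrArg (fun t : 𝓞 K ↦ σ (t : K)) (unit_three_pow_six hζ w)
  have hw2 : σ ((w : 𝓞 K) : K) ^ 2 = 1 := by
    linear_combination hw6 - σ ((w : 𝓞 K) : K) ^ 2 * hw4
  refine ⟨(b : K) * ((w : 𝓞 K) : K), ?_⟩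
  rw [hα', mul_pow]
  congr 1
  have hw2' : ((w : 𝓞 K) : K) ^ 2 = 1 := σ.injective (by rw [map_pow, hw2, map_one])
  rw [pow_succ, hw2', one_mul]

end Fermat.Agent.ClassField
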