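import Fermat.Agent.ClassField.ClassZeta
import Fermat.Agent.ClassField.EulerProduct
import Fermat.Agent.ClassField.SplitPrimes
import Mathlib.FieldTheory.KummerExtension

/-!
A nontrivial character of the class group is nontrivial on some degree one prime at which a given
non-`p`-th power is not a `p`-th power residue (`p ≥ 3`).
-/

noncomputable section

open NumberField IsDedekindDomain Filter Topology
open scoped nonZeroDivisors Classical Pointwise

namespace Fermat.Agent.ClassField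

variable {K : Type*} [Field K] [NumberField K]

/-- `I ↦ ψ(I) N(I)^(-s)`. -/
def idealTerm (ψ : ClassGroup (𝓞 K) →* ℂ) (s : ℝ) : (Ideal (𝓞 K))⁰ →* ℂ where
  toFun I := ψ (ClassGroup.mk0 I) * (((Ideal.absNorm I.1 : ℝ) ^ (-s) : ℝ) : ℂ)
  map_one' := by simp
  map_mul' I J := by
    simp only [map_mul, Submonoid.coe_mul, Nat.cast_mul]
    rw [Real.mul_rpow (Nat.cast_nonneg _) (Nat.cast_nonneg _), Complex.ofReal_mul]
    ring

lemma summable_norm_idealTerm (ψ : ClassGroup (𝓞 K) →* ℂ) {s : ℝ}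
    (hs : s ∈ Set.Ioc (1 : ℝ) 2) : Summable fun I ↦ ‖idealTerm ψ s I‖ := by
  refine Summable.of_nonneg_of_le (fun _ ↦ norm_nonneg _) (fun I ↦ ?_)
    ((hasSum_idealZeta K hs).summable.mul_left (∑ C, ‖ψ C‖))
  show ‖ψ (ClassGroup.mk0 I) * _‖ ≤ _
  rw [norm_mul, Complex.norm_of_nonneg (Real.rpow_nonneg (Nat.cast_nonneg _) _)]
  exact mul_le_mul_of_nonneg_right (Finset.single_le_sum (fun C _ ↦ norm_nonneg (ψ C))
    (Finset.mem_univ (ClassGroup.mk0 I))) (Real.rpow_nonneg (Nat.cast_nonneg _) _)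

lemma tsum_idealTerm (ψ : ClassGroup (𝓞 K) →* ℂ) {s : ℝ} (hs : s ∈ Set.Ioc (1 : ℝ) 2) :
    ∑' I, idealTerm ψ s I = ∑ C, ψ C * (classZeta K C s : ℂ) := by
  have h := (summable_norm_idealTerm ψ hs).of_norm.hasSum
  rw [← (Equiv.sigmaFiberEquiv (ClassGroup.mk0 : (Ideal (𝓞 K))⁰ → _)).hasSum_iff] at h
  refine (h.sigma fun C ↦ ?_).unique (hasSum_fintype fun C ↦ ψ C * (classZeta K C s : ℂ))
  refine (((summable_classZeta K C hs).hasSum.mapL Complex.ofRealCLM).mul_left (ψ C)).congr_fun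
    fun I ↦ ?_
  show ψ (ClassGroup.mk0 I.1) * _ = _
  rw [I.2]; rfl

/-- `N(P)^(-s)`. -/
def primeWeight (P : HeightOneSpectrum (𝓞 K)) (s : ℝ) : ℝ :=
  (Ideal.absNorm P.asIdeal : ℝ) ^ (-s)

lemma two_le_absNorm (P : HeightOneSpectrum (𝓞 K)) : 2 ≤ Ideal.absNorm P.asIdeal := by
  have h0 : Ideal.absNorm P.asIdeal ≠ 0 := fun h ↦ P.ne_bot (Ideal.absNorm_eq_zero_iff.mp h)
  have h1 : Ideal.absNorm P.asIdeal ≠ 1 := fun h ↦
    P.isPrime.ne_top (Ideal.absNorm_eq_one_iff.mp h)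
  omega

lemma primeWeight_pos (P : HeightOneSpectrum (𝓞 K)) (s : ℝ) : 0 < primeWeight P s :=
  Real.rpow_pos_of_pos (by exact_mod_cast zero_lt_two.trans_le (two_le_absNorm P)) _

lemma primeWeight_le_half (P : HeightOneSpectrum (𝓞 K)) {s : ℝ} (hs : 1 ≤ s) :
    primeWeight P s ≤ 1 / 2 := by
  have h2 : (2 : ℝ) ≤ Ideal.absNorm P.asIdeal := by exact_mod_cast two_le_absNorm P
  rw [one_div, ← Real.rpow_neg_one]
  refine le_trans (Real.rpow_le_rpow_of_exponent_le (by linarith) (neg_le_neg hs)) ?_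
  exact Real.rpow_le_rpow_of_nonpos zero_lt_two h2 (by norm_num)

lemma one_le_inv_one_sub (P : HeightOneSpectrum (𝓞 K)) {s : ℝ} (hs : 1 ≤ s) :
    1 ≤ (1 - primeWeight P s)⁻¹ := by
  have h1 := primeWeight_le_half P hs
  have h2 := primeWeight_pos P s
  exact (one_le_inv₀ (by linarith)).mpr (by linarith)

lemma exp_primeWeight_le (P : HeightOneSpectrum (𝓞 K)) {s : ℝ} (hs : 1 ≤ s) :
    Real.exp (primeWeight P s) ≤ (1 - primeWeight P s)⁻¹ := by
  have h1 := primeWeight_le_half P hs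
  have h2 := Real.add_one_le_exp (-primeWeight P s)
  rw [show Real.exp (primeWeight P s) = (Real.exp (-primeWeight P s))⁻¹ by rw [Real.exp_neg, inv_inv]]
  exact inv_anti₀ (by linarith) (by linarith)

lemma inv_one_sub_le_exp (P : HeightOneSpectrum (𝓞 K)) {s : ℝ} (hs : 1 ≤ s) :
    (1 - primeWeight P s)⁻¹ ≤ Real.exp (primeWeight P s + 2 * primeWeight P s ^ 2) := by
  have h1 := primeWeight_le_half P hs
  have h2 := primeWeight_pos P s
  refine le_trans ?_ (Real.add_one_le_exp _)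
  rw [inv_le_iff_one_le_mul₀' (by linarith)]
  nlinarith [mul_nonneg (sq_nonneg (primeWeight P s)) (by linarith : (0:ℝ) ≤ 1 - 2 * primeWeight P s)]

lemma tendsto_prod_primeWeight {s : ℝ} (hs : s ∈ Set.Ioc (1 : ℝ) 2) :
    Tendsto (fun S : Finset (HeightOneSpectrum (𝓞 K)) ↦ ∏ P ∈ S, (1 - primeWeight P s)⁻¹) atTop
      (𝓝 (idealZeta K s)) := by
  have h := (Complex.continuous_re.tendsto _).comp
    (tendsto_eulerProduct (idealTerm (1 : ClassGroup (𝓞 K) →* ℂ) s) (summable_norm_idealTerm _ hs))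
  have ht : ∑' I, idealTerm (1 : ClassGroup (𝓞 K) →* ℂ) s I = ((idealZeta K s : ℝ) : ℂ) := by
    rw [tsum_idealTerm _ hs, idealZeta, (hasSum_idealZeta K hs).tsum_eq, Complex.ofReal_sum]
    simp
  rw [ht, Complex.ofReal_re] at h
  refine h.congr fun S ↦ ?_
  have : ∀ P : HeightOneSpectrum (𝓞 K), (1 - idealTerm (1 : ClassGroup (𝓞 K) →* ℂ) s (primeElt P))⁻¹ =
      (((1 - primeWeight P s)⁻¹ : ℝ) : ℂ) := fun P ↦ by
    show (1 - (1 : ℂ) * _)⁻¹ = _
    rw [one_mul, Complex.ofReal_inv, Complex.ofReal_sub, Complex.ofReal_one]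
    rfl
  simp only [Function.comp_apply, this, ← Complex.ofReal_prod, Complex.ofReal_re]

lemma prod_primeWeight_le {s : ℝ} (hs : s ∈ Set.Ioc (1 : ℝ) 2)
    (S : Finset (HeightOneSpectrum (𝓞 K))) :
    ∏ P ∈ S, (1 - primeWeight P s)⁻¹ ≤ idealZeta K s := by
  refine ge_of_tendsto (tendsto_prod_primeWeight hs) ?_
  filter_upwards [eventually_ge_atTop S] with T hT
  exact Finset.prod_le_prod_of_subset_of_one_le hT
    (fun P _ ↦ zero_le_one.trans (one_le_inv_one_sub P hs.1.le))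
    (fun P _ _ ↦ one_le_inv_one_sub P hs.1.le)

variable {p : ℕ} [hp : Fact p.Prime]

/-- The "good" primes for the Kummer element `η`. -/
def IsSplitAt (η : 𝓞 K) (p : ℕ) (P : HeightOneSpectrum (𝓞 K)) : Prop :=
  (Ideal.absNorm P.asIdeal).Prime ∧ (p : 𝓞 K) ∉ P.asIdeal ∧ η ∉ P.asIdeal ∧
    ∃ x : 𝓞 K, η - x ^ p ∈ P.asIdeal

lemma dvd_sub_one_of_primitiveRoot {P : HeightOneSpectrum (𝓞 K)} {ζ : 𝓞 K}
    (hζ : IsPrimitiveRoot ζ p) (hq : (Ideal.absNorm P.asIdeal).Prime)
    (hP : (p : 𝓞 K) ∉ P.asIdeal) : p ∣ Ideal.absNorm P.asIdeal - 1 := by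
  set q := Ideal.absNorm P.asIdeal with hqdef
  have : Fact q.Prime := ⟨hq⟩
  have : P.asIdeal.IsMaximal := P.isPrime.isMaximal P.ne_bot
  have hζP : ζ ∉ P.asIdeal := fun h ↦
    P.isPrime.ne_top (Ideal.eq_top_of_isUnit_mem _ h (hζ.isUnit hp.out.ne_zero))
  have h := pow_sub_one_sub_one_mem (q := q) rfl hζP
  rw [← hζ.pow_eq_one_iff_dvd]
  by_contra hne
  exact sub_one_notMem (by rw [← pow_mul, mul_comm, pow_mul, hζ.pow_eq_one, one_pow]) hne hP h

/-- The bound coming from the Kummer extension. -/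
theorem exists_kummer_bound {ζ : 𝓞 K} (hζ : IsPrimitiveRoot ζ p) (η : 𝓞 K)
    (hη : ∀ x : K, x ^ p ≠ (η : K)) :
    ∃ A : ℝ, ∀ᶠ s : ℝ in 𝓝[>] 1, ∀ S : Finset (HeightOneSpectrum (𝓞 K)),
      (∀ P ∈ S, IsSplitAt η p P) →
        Real.exp ((p : ℝ) * ∑ P ∈ S, primeWeight P s) ≤ A / (s - 1) := by
  have hζK : IsPrimitiveRoot (ζ : K) p := hζ.map_of_injective RingOfIntegers.coe_injective
  have hirr := X_pow_sub_C_irreducible_of_prime hp.out hη
  have : Fact (Irreducible (Polynomial.X ^ p - Polynomial.C (η : K))) := ⟨hirr⟩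
  have hroots : (primitiveRoots p K).Nonempty :=
    ⟨(ζ : K), (mem_primitiveRoots hp.out.pos).mpr hζK⟩
  let M := AdjoinRoot (Polynomial.X ^ p - Polynomial.C (η : K))
  have : Module.Finite K M := (Polynomial.monic_X_pow_sub_C _ hp.out.ne_zero).finite_adjoinRoot
  have : CharZero M := charZero_of_injective_algebraMap (algebraMap K M).injective
  have : Module.Finite ℚ M := Module.Finite.trans K M
  have : NumberField M := ⟨⟩
  have hspl := isSplittingField_AdjoinRoot_X_pow_sub_C hroots hirr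
  have : IsGalois K M := isGalois_of_isSplittingField_X_pow_sub_C hroots hirr M
  have hfr : Module.finrank K M = p := finrank_of_isSplittingField_X_pow_sub_C hroots hirr M
  have hcardG : Nat.card (M ≃ₐ[K] M) = p := by rw [IsGalois.card_aut_eq_finrank, hfr]
  set β : M := AdjoinRoot.root _
  have hβ : β ^ p = algebraMap K M (η : K) := root_X_pow_sub_C_pow p (η : K)
  have hβint : IsIntegral ℤ β :=
    IsIntegral.of_pow hp.out.pos (hβ ▸ (RingOfIntegers.isIntegral_coe η).map (algebraMap K M).toIntAlgHom)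
  let B : 𝓞 M := ⟨β, hβint⟩
  have hB : B ^ p = algebraMap (𝓞 K) (𝓞 M) η := RingOfIntegers.ext (by
    show β ^ p = algebraMap K M (η : K)
    exact hβ)
  -- detection
  have hdet : ∀ (Q : Ideal (𝓞 M)) [Q.IsPrime], algebraMap (𝓞 K) (𝓞 M) η ∉ Q → (p : 𝓞 M) ∉ Q →
      ∀ τ : M ≃ₐ[K] M, τ • B - B ∈ Q → τ = 1 := by
    intro Q _ hηQ hpQ τ hτ
    have hpow : (τ β) ^ p = β ^ p := by rw [← map_pow, hβ, AlgEquiv.commutes]
    have hβ0 : β ≠ 0 := root_X_pow_sub_C_ne_zero' hp.out.pos fun h ↦ hη 0 (by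
      rw [zero_pow hp.out.ne_zero, h])
    have hint : IsIntegral ℤ (τ β / β) :=
      IsIntegral.of_pow hp.out.pos (by rw [div_pow, hpow, div_self (pow_ne_zero _ hβ0)]; exact isIntegral_one)
    let ξ : 𝓞 M := ⟨τ β / β, hint⟩
    have hξ : ξ ^ p = 1 := RingOfIntegers.ext (by
      show (τ β / β) ^ p = 1
      rw [div_pow, hpow, div_self (pow_ne_zero _ hβ0)])
    have hξB : ξ * B = τ • B := RingOfIntegers.ext (by
      show τ β / β * β = τ β
      exact div_mul_cancel₀ _ hβ0)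
    by_contra hne
    have hξ1 : ξ ≠ 1 := fun h ↦ hne (by
      rw [h, one_mul] at hξB
      refine AlgEquiv.coe_toAlgHom_injective (AdjoinRoot.algHom_ext ?_)
      exact (congrArg (algebraMap (𝓞 M) M) hξB).symm)
    have hmem : (ξ - 1) * B ∈ Q := by rwa [sub_mul, one_mul, hξB]
    rcases (‹Q.IsPrime›).mem_or_mem hmem with h | h
    · exact sub_one_notMem hξ hξ1 hpQ h
    · exact hηQ (hB ▸ Q.pow_mem_of_mem h p hp.out.pos)
  -- the primes above a good prime
  have habove : ∀ P : HeightOneSpectrum (𝓞 K), IsSplitAt η p P → ∃ Q : HeightOneSpectrum (𝓞 M),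
      Q.asIdeal.LiesOver P.asIdeal ∧ ∀ τ : M ≃ₐ[K] M,
        Ideal.absNorm (τ • Q.asIdeal) = Ideal.absNorm P.asIdeal ∧
          (τ • Q.asIdeal = Q.asIdeal → τ = 1) := by
    rintro P ⟨hq, hpP, hηP, x, hx⟩
    have : P.asIdeal.IsMaximal := P.isPrime.isMaximal P.ne_bot
    obtain ⟨Q, hQmax, hQP⟩ := Ideal.exists_maximal_ideal_liesOver_of_isIntegral (S := 𝓞 M) P.asIdeal
    have hQbot : Q ≠ ⊥ := Ideal.ne_bot_of_liesOver_of_ne_bot P.ne_bot Q
    refine ⟨⟨Q, hQmax.isPrime, hQbot⟩, hQP, fun τ ↦ ?_⟩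
    set q := Ideal.absNorm P.asIdeal with hqdef
    have : Fact q.Prime := ⟨hq⟩
    have key : ∀ (Q' : Ideal (𝓞 M)) [Q'.IsPrime] [Q'.LiesOver P.asIdeal],
        Ideal.absNorm Q' = q ∧ ∀ τ : M ≃ₐ[K] M, τ • Q' = Q' → τ = 1 := by
      intro Q' _ _
      have hmem : ∀ a : 𝓞 K, a ∈ P.asIdeal ↔ algebraMap (𝓞 K) (𝓞 M) a ∈ Q' := fun a ↦ by
        rw [Ideal.LiesOver.over (P := Q') (p := P.asIdeal)]; rfl
      refine absNorm_eq_and_stabilizer K M (hP := hqdef.symm) B
        (hdet Q' (mt (hmem η).mpr hηP) (fun h ↦ hpP ((hmem _).mpr (by rwa [map_natCast])))) ?_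
      obtain ⟨k, hk⟩ := dvd_sub_one_of_primitiveRoot hζ hq hpP
      have hxP : x ∉ P.asIdeal := fun h ↦ hηP (by
        simpa using add_mem hx (P.asIdeal.pow_mem_of_mem h p hp.out.pos))
      have h1 : η ^ k - 1 ∈ P.asIdeal := by
        have h2 := Ideal.mem_of_dvd P.asIdeal (sub_dvd_pow_sub_pow η (x ^ p) k) hx
        have h3 := pow_sub_one_sub_one_mem (q := q) hqdef.symm hxP
        rw [← pow_mul, ← hk] at h2
        simpa [hqdef] using add_mem h2 h3
      rw [hmem, map_sub, map_pow, map_one, ← hB, ← pow_mul, ← hk] at h1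
      have h4 := Q'.mul_mem_left B h1
      rwa [mul_sub, mul_one, ← pow_succ', Nat.sub_add_cancel hq.one_lt.le] at h4
    have := key Q
    refine ⟨?_, this.2 τ⟩
    exact (key (τ • Q)).1
  choose Qof hQover hQof using habove
  refine ⟨dedekindZeta_residue M + 1, ?_⟩
  have hev : ∀ᶠ s : ℝ in 𝓝[>] 1, (s - 1) * idealZeta M s ≤ dedekindZeta_residue M + 1 :=
    (tendsto_sub_one_mul_idealZeta M).eventually (Iic_mem_nhds (lt_add_one _))
  filter_upwards [hev, Ioc_mem_nhdsGT one_lt_two] with s hs1 hs S hS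
  let F : {P // P ∈ S} × (M ≃ₐ[K] M) → HeightOneSpectrum (𝓞 M) := fun x ↦
    ⟨x.2 • (Qof x.1.1 (hS _ x.1.2)).asIdeal, inferInstance, fun h ↦ by
      have h' := (hQof x.1.1 (hS _ x.1.2) x.2).1
      rw [h, Ideal.absNorm_bot] at h'
      exact absurd h'.symm (hS _ x.1.2).1.ne_zero⟩
  have hinj : Function.Injective F := by
    rintro ⟨⟨P, hP⟩, σ⟩ ⟨⟨P', hP'⟩, σ'⟩ h
    have h' : σ • (Qof P (hS _ hP)).asIdeal = σ' • (Qof P' (hS _ hP')).asIdeal :=
      congrArg HeightOneSpectrum.asIdeal h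
    have hPP : P = P' := by
      have := hQover P (hS _ hP)
      have := hQover P' (hS _ hP')
      refine HeightOneSpectrum.ext ?_
      rw [Ideal.LiesOver.over (P := σ • (Qof P (hS _ hP)).asIdeal) (p := P.asIdeal),
        Ideal.LiesOver.over (P := σ' • (Qof P' (hS _ hP')).asIdeal) (p := P'.asIdeal), h']
    subst hPP
    have h2 : (σ'⁻¹ * σ) • (Qof P (hS _ hP)).asIdeal = (Qof P (hS _ hP)).asIdeal := by
      rw [mul_smul, h', inv_smul_smul]
    rw [inv_mul_eq_one.mp ((hQof P (hS _ hP) _).2 h2)]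
  have hw : ∀ x, primeWeight (F x) s = primeWeight x.1.1 s := fun x ↦ by
    simp only [primeWeight, F, (hQof x.1.1 (hS _ x.1.2) x.2).1]
  have hbound := prod_primeWeight_le hs ((Finset.univ : Finset _).image F)
  rw [Finset.prod_image hinj.injOn] at hbound
  calc Real.exp ((p : ℝ) * ∑ P ∈ S, primeWeight P s)
      = ∏ x : {P // P ∈ S} × (M ≃ₐ[K] M), Real.exp (primeWeight (F x) s) := by
        rw [← Real.exp_sum]
        congr 1
        simp only [hw]
        rw [Fintype.sum_prod_type, Finset.mul_sum, ← Finset.sum_coe_sort S]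
        refine Finset.sum_congr rfl fun x _ ↦ ?_
        simp [← Nat.card_eq_fintype_card, hcardG]
    _ ≤ ∏ x, (1 - primeWeight (F x) s)⁻¹ :=
        Finset.prod_le_prod (fun x _ ↦ (Real.exp_pos _).le) fun x _ ↦ exp_primeWeight_le _ hs.1.le
    _ ≤ idealZeta M s := hbound
    _ ≤ _ := by
        rw [le_div_iff₀ (by linarith [hs.1]), mul_comm]
        exact hs1

/-- The bound coming from boundedness of `L(s, ψ)`. -/
theorem exists_character_bound (ψ : ClassGroup (𝓞 K) →* Multiplicative (ZMod p)) (hψ : ψ ≠ 1) :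
    ∃ A : ℝ, ∀ᶠ s : ℝ in 𝓝[>] 1, ∀ S : Finset (HeightOneSpectrum (𝓞 K)),
      (∀ P ∈ S, ψ (ClassGroup.mk0 (primeElt P)) = 1) →
        Real.exp ((p : ℝ) * ∑ P ∈ S, primeWeight P s) ≤ A / (s - 1) := by
  obtain ⟨z, hz⟩ : ∃ z : ℂ, IsPrimitiveRoot z p :=
    ⟨_, Complex.isPrimitiveRoot_exp p hp.out.ne_zero⟩
  let χ : ℕ → (ClassGroup (𝓞 K) →* ℂ) := fun j ↦
    { toFun := fun C ↦ z ^ (j * (Multiplicative.toAdd (ψ C)).val)
      map_one' := by simp
      map_mul' := fun C D ↦ by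
        rw [map_mul, toAdd_mul, ← pow_add, ← Nat.mul_add, pow_eq_pow_mod _ hz.pow_eq_one]
        conv_rhs => rw [pow_eq_pow_mod _ hz.pow_eq_one]
        congr 1
        rw [ZMod.val_add, Nat.mul_mod, Nat.mod_mod, ← Nat.mul_mod] }
  obtain ⟨B, hB⟩ := exists_classZeta_sub_le K
  have hsum0 : ∀ j ∈ (Finset.range p).erase 0, ∑ C, χ j C = 0 := by
    intro j hj
    rw [Finset.mem_erase, Finset.mem_range] at hj
    obtain ⟨C₀, hC₀⟩ : ∃ C, ψ C ≠ 1 := by
      by_contra! h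
      exact hψ (MonoidHom.ext h)
    refine eq_zero_of_mul_eq_self_left (b := χ j C₀) ?_ ?_
    · show z ^ _ ≠ 1
      rw [ne_eq, hz.pow_eq_one_iff_dvd]
      intro hdvd
      rcases hp.out.dvd_mul.mp hdvd with h | h
      · exact absurd (Nat.le_of_dvd (Nat.pos_of_ne_zero hj.1) h) (not_le.mpr hj.2)
      · refine hC₀ (Multiplicative.toAdd.injective ?_)
        have := Nat.eq_zero_of_dvd_of_lt h (ZMod.val_lt _)
        rwa [ZMod.val_eq_zero] at this
    · rw [Finset.mul_sum]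
      refine Fintype.sum_equiv (Equiv.mulLeft C₀) _ _ fun C ↦ ?_
      simp
  set N : ℝ := (Fintype.card (ClassGroup (𝓞 K)) : ℝ)
  refine ⟨(dedekindZeta_residue K + 1) * (N * B) ^ (p - 1), ?_⟩
  have hev : ∀ᶠ s : ℝ in 𝓝[>] 1, (s - 1) * idealZeta K s ≤ dedekindZeta_residue K + 1 :=
    (tendsto_sub_one_mul_idealZeta K).eventually (Iic_mem_nhds (lt_add_one _))
  filter_upwards [hev, hB, Ioc_mem_nhdsGT one_lt_two] with s hs1 hB hs S hS
  have hlim : Tendsto (fun T : Finset (HeightOneSpectrum (𝓞 K)) ↦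
      ‖∏ j ∈ Finset.range p, ∏ P ∈ T, (1 - idealTerm (χ j) s (primeElt P))⁻¹‖) atTop
      (𝓝 ‖∏ j ∈ Finset.range p, ∑' I, idealTerm (χ j) s I‖) :=
    (tendsto_finsetProd _ fun j _ ↦ tendsto_eulerProduct _ (summable_norm_idealTerm _ hs)).norm
  have hlow : Real.exp ((p : ℝ) * ∑ P ∈ S, primeWeight P s) ≤
      ‖∏ j ∈ Finset.range p, ∑' I, idealTerm (χ j) s I‖ := by
    refine ge_of_tendsto hlim ?_
    filter_upwards [eventually_ge_atTop S] with T hT
    rw [Finset.prod_comm, norm_prod]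
    have hone : ∀ P, ψ (ClassGroup.mk0 (primeElt P)) = 1 →
        ‖∏ j ∈ Finset.range p, (1 - idealTerm (χ j) s (primeElt P))⁻¹‖ =
          (1 - primeWeight P s)⁻¹ ^ p := by
      intro P hP
      have : ∀ j, idealTerm (χ j) s (primeElt P) = (primeWeight P s : ℂ) := fun j ↦ by
        show z ^ (j * (Multiplicative.toAdd (ψ _)).val) * _ = _
        rw [hP]; simp [primeWeight]
      simp only [this, Finset.prod_const, Finset.card_range, norm_pow, norm_inv]
      rw [← Complex.ofReal_one, ← Complex.ofReal_sub, Complex.norm_of_nonneg]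
      linarith [primeWeight_le_half P hs.1.le]
    have hge : ∀ P, 1 ≤ ‖∏ j ∈ Finset.range p, (1 - idealTerm (χ j) s (primeElt P))⁻¹‖ := by
      intro P
      by_cases hP : ψ (ClassGroup.mk0 (primeElt P)) = 1
      · rw [hone P hP]; exact one_le_pow₀ (one_le_inv_one_sub P hs.1.le)
      set k := (Multiplicative.toAdd (ψ (ClassGroup.mk0 (primeElt P)))).val
      have hk : IsPrimitiveRoot (z ^ k) p := by
        refine hz.pow_of_coprime k (hp.out.coprime_iff_not_dvd.mpr fun h ↦ hP ?_).symm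
        have := Nat.eq_zero_of_dvd_of_lt h (ZMod.val_lt _)
        exact Multiplicative.toAdd.injective (by rwa [ZMod.val_eq_zero] at this)
      set x : ℂ := (primeWeight P s : ℂ)
      have hterm : ∀ j, idealTerm (χ j) s (primeElt P) = (z ^ k) ^ j * x := fun j ↦ by
        show z ^ (j * k) * _ = _
        rw [← pow_mul, mul_comm j]; rfl
      rw [Finset.prod_inv_distrib, Finset.prod_congr rfl fun j _ ↦ by rw [hterm],
        show ∏ j ∈ Finset.range p, (1 - (z ^ k) ^ j * x) = 1 - x ^ p by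
          have h := hk.pow_sub_pow_eq_prod_sub_mul 1 x hp.out.pos
          rw [one_pow] at h
          rw [h]
          refine Finset.prod_bij (fun j _ ↦ (z ^ k) ^ j) (fun j _ ↦ ?_)
            (fun a ha b hb h ↦ hk.pow_inj (Finset.mem_range.mp ha) (Finset.mem_range.mp hb) h)
            (fun ξ hξ ↦ ?_) (fun j _ ↦ rfl)
          · rw [Polynomial.mem_nthRootsFinset hp.out.pos, ← pow_mul, mul_comm, pow_mul,
              hk.pow_eq_one, one_pow]
          · rw [Polynomial.mem_nthRootsFinset hp.out.pos] at hξ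
            obtain ⟨i, hi, rfl⟩ := hk.eq_pow_of_pow_eq_one hξ
            exact ⟨i, Finset.mem_range.mpr hi, rfl⟩,
        norm_inv, ← Complex.ofReal_pow, ← Complex.ofReal_one, ← Complex.ofReal_sub,
        Complex.norm_of_nonneg]
      · refine (one_le_inv₀ ?_).mpr (by linarith [pow_pos (primeWeight_pos P s) p])
        linarith [pow_le_of_le_one (primeWeight_pos P s).le
          (by linarith [primeWeight_le_half P hs.1.le]) hp.out.ne_zero, primeWeight_le_half P hs.1.le]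
      · linarith [pow_le_of_le_one (primeWeight_pos P s).le
          (by linarith [primeWeight_le_half P hs.1.le]) hp.out.ne_zero, primeWeight_le_half P hs.1.le]
    calc Real.exp ((p : ℝ) * ∑ P ∈ S, primeWeight P s)
        = ∏ P ∈ S, Real.exp (primeWeight P s) ^ p := by
          rw [Finset.mul_sum, Real.exp_sum]; simp [← Real.exp_nat_mul]
      _ ≤ ∏ P ∈ S, ‖∏ j ∈ Finset.range p, (1 - idealTerm (χ j) s (primeElt P))⁻¹‖ := by
          refine Finset.prod_le_prod (fun P _ ↦ by positivity) fun P hP ↦ ?_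
          rw [hone P (hS P hP)]
          exact pow_le_pow_left₀ (Real.exp_pos _).le (exp_primeWeight_le P hs.1.le) p
      _ ≤ _ := Finset.prod_le_prod_of_subset_of_one_le hT (fun P _ ↦ norm_nonneg _)
          (fun P _ _ ↦ hge P)
  refine hlow.trans ?_
  rw [norm_prod, ← Finset.mul_prod_erase _ _ (Finset.mem_range.mpr hp.out.pos), mul_div_right_comm]
  refine mul_le_mul ?_ ?_ (Finset.prod_nonneg fun _ _ ↦ norm_nonneg _) ?_
  · rw [tsum_idealTerm _ hs]
    refine (norm_sum_le _ _).trans ?_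
    rw [le_div_iff₀ (by linarith [hs.1])]
    refine le_trans (le_of_eq ?_) hs1
    rw [idealZeta, (hasSum_idealZeta K hs).tsum_eq, mul_comm]
    congr 1
    refine Finset.sum_congr rfl fun C _ ↦ ?_
    simp [χ, classZeta_nonneg K C s]
  · refine (Finset.prod_le_prod (fun _ _ ↦ norm_nonneg _) (g := fun _ ↦ N * B) fun j hj ↦ ?_).trans_eq
      (by simp [hp.out.pos])
    rw [tsum_idealTerm _ hs, show ∑ C, χ j C * (classZeta K C s : ℂ) =
      ∑ C, χ j C * ((classZeta K C s - classZeta K 1 s : ℝ) : ℂ) by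
        simp only [Complex.ofReal_sub, mul_sub, Finset.sum_sub_distrib, ← Finset.sum_mul,
          hsum0 j hj, zero_mul, sub_zero]]
    refine (norm_sum_le _ _).trans ((Finset.sum_le_card_nsmul _ _ B fun C _ ↦ ?_).trans_eq
      (by simp [N]))
    rw [norm_mul, show ‖χ j C‖ = 1 from by
      show ‖z ^ _‖ = 1
      rw [norm_pow, hz.norm'_eq_one hp.out.ne_zero, one_pow], one_mul, Complex.norm_real,
      Real.norm_eq_abs]
    exact hB C 1
  · have := dedekindZeta_residue_pos K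
    exact div_nonneg (by linarith) (by linarith [hs.1])

/-- The residue characteristic of a prime. -/
def residueChar (P : HeightOneSpectrum (𝓞 K)) : ℕ := (Ideal.absNorm P.asIdeal).minFac

omit hp in
lemma exists_absNorm_eq_residueChar_pow (P : HeightOneSpectrum (𝓞 K)) :
    (residueChar P).Prime ∧ (residueChar P : 𝓞 K) ∈ P.asIdeal ∧
      ∃ f, Ideal.absNorm P.asIdeal = residueChar P ^ f := by
  have : P.asIdeal.IsMaximal := P.isPrime.isMaximal P.ne_bot
  have : Finite (𝓞 K ⧸ P.asIdeal) := Ideal.finiteQuotientOfFreeOfNeBot _ P.ne_bot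
  let := Ideal.Quotient.field P.asIdeal
  let := Fintype.ofFinite (𝓞 K ⧸ P.asIdeal)
  obtain ⟨q, -, ⟨f, hf0⟩, hq, hf⟩ := FiniteField.card' (𝓞 K ⧸ P.asIdeal)
  have hN : Ideal.absNorm P.asIdeal = q ^ f := by
    rw [Ideal.absNorm_apply, Submodule.cardQuot_apply, Nat.card_eq_fintype_card]; exact hf
  have hr : residueChar P = q := by
    rw [residueChar, hN, Nat.pow_minFac hf0.ne', hq.minFac_eq]
  refine ⟨hr ▸ hq, ?_, f, hr ▸ hN⟩
  have h := Ideal.absNorm_mem P.asIdeal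
  rw [hN, Nat.cast_pow] at h
  exact hr ▸ P.isPrime.mem_of_pow_mem f h

omit hp in
lemma card_filter_residueChar_le (q : ℕ) (hq : q.Prime) (S : Finset (HeightOneSpectrum (𝓞 K))) :
    (S.filter fun P ↦ residueChar P = q).card ≤ Module.finrank ℚ K := by
  set T := S.filter fun P ↦ residueChar P = q
  have hmem : ∀ P ∈ T, (q : 𝓞 K) ∈ P.asIdeal := fun P hP ↦
    (Finset.mem_filter.mp hP).2 ▸ (exists_absNorm_eq_residueChar_pow P).2.1
  have hdvd : ∏ P ∈ T, P.asIdeal ∣ Ideal.span {(q : 𝓞 K)} := by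
    rw [← Finset.prod_image (f := fun I : Ideal (𝓞 K) ↦ I) (g := HeightOneSpectrum.asIdeal)
      (fun a _ b _ h ↦ HeightOneSpectrum.ext h)]
    refine Finset.prod_primes_dvd _ ?_ ?_
    · intro I hI
      obtain ⟨P, -, rfl⟩ := Finset.mem_image.mp hI
      exact Ideal.prime_of_isPrime P.ne_bot P.isPrime
    · intro I hI
      obtain ⟨P, hP, rfl⟩ := Finset.mem_image.mp hI
      exact Ideal.dvd_span_singleton.mpr (hmem P hP)
  have h1 := map_dvd Ideal.absNorm hdvd
  have h0 : Algebra.norm ℤ (q : 𝓞 K) = (q : ℤ) ^ Module.finrank ℚ K := by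
    rw [show (q : 𝓞 K) = algebraMap ℤ (𝓞 K) q by simp, Algebra.norm_algebraMap,
      RingOfIntegers.rank]
  rw [map_prod, Ideal.absNorm_span_singleton, h0, Int.natAbs_pow, Int.natAbs_natCast] at h1
  have h2 : q ^ T.card ∣ ∏ P ∈ T, Ideal.absNorm P.asIdeal := by
    rw [← Finset.prod_const]
    refine Finset.prod_dvd_prod_of_dvd _ _ fun P hP ↦ ?_
    rw [← (Finset.mem_filter.mp hP).2]
    exact Nat.minFac_dvd _
  exact (Nat.pow_dvd_pow_iff_le_right hq.one_lt).mp (h2.trans h1)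

/-- Contribution of the primes that are not of degree one, together with the squares. -/
theorem exists_error_bound (bad : Finset (HeightOneSpectrum (𝓞 K))) :
    ∃ C : ℝ, ∀ s ∈ Set.Ioc (1 : ℝ) 2, ∀ S : Finset (HeightOneSpectrum (𝓞 K)),
      (∑ P ∈ S.filter (fun P ↦ P ∈ bad ∨ ¬ (Ideal.absNorm P.asIdeal).Prime), primeWeight P s) +
        2 * ∑ P ∈ S, primeWeight P s ^ 2 ≤ C := by
  set n := Module.finrank ℚ K
  -- squares are dominated by zeta at 2
  have hsq : ∀ s ∈ Set.Ioc (1 : ℝ) 2, ∀ S : Finset (HeightOneSpectrum (𝓞 K)),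
      ∑ P ∈ S, primeWeight P s ^ 2 ≤ idealZeta K 2 := by
    intro s hs S
    have h2 : (2 : ℝ) ∈ Set.Ioc (1 : ℝ) 2 := by norm_num
    have hinj : Function.Injective (primeElt : HeightOneSpectrum (𝓞 K) → _) := fun a b h ↦
      HeightOneSpectrum.ext (congrArg Subtype.val h)
    refine le_trans ?_ (((hasSum_idealZeta K h2).summable).sum_le_tsum (S.image primeElt)
      (fun I _ ↦ Real.rpow_nonneg (Nat.cast_nonneg _) _))
    rw [Finset.sum_image hinj.injOn]
    refine Finset.sum_le_sum fun P _ ↦ ?_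
    rw [primeWeight, ← Real.rpow_natCast, ← Real.rpow_mul (Nat.cast_nonneg _), coe_primeElt]
    exact Real.rpow_le_rpow_of_exponent_le (by exact_mod_cast one_le_two.trans (two_le_absNorm P))
      (by push_cast; linarith [hs.1])
  -- primes of higher degree
  let g : HeightOneSpectrum (𝓞 K) → ℕ := residueChar
  have hgp : ∀ P, (g P).Prime := fun P ↦ (exists_absNorm_eq_residueChar_pow P).1
  obtain ⟨D, hD⟩ : ∃ D : ℝ, ∀ s ∈ Set.Ioc (1 : ℝ) 2, ∀ S : Finset (HeightOneSpectrum (𝓞 K)),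
      (∀ P ∈ S, ¬ (Ideal.absNorm P.asIdeal).Prime) → ∑ P ∈ S, primeWeight P s ≤ D := by
    refine ⟨n * ∑' m : ℕ, ((m : ℝ) ^ 2)⁻¹, fun s hs S hS ↦ ?_⟩
    rw [← Finset.sum_fiberwise_of_maps_to (g := g) (t := S.image g)
      (fun P hP ↦ Finset.mem_image_of_mem g hP)]
    refine le_trans ?_ (mul_le_mul_of_nonneg_left
      ((Real.summable_nat_pow_inv.mpr one_lt_two).sum_le_tsum (S.image g) fun m _ ↦ by positivity)
      (Nat.cast_nonneg n))
    rw [Finset.mul_sum]
    refine Finset.sum_le_sum fun m hm ↦ ?_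
    obtain ⟨P₀, hP₀, rfl⟩ := Finset.mem_image.mp hm
    have hpr := hgp P₀
    refine (Finset.sum_le_card_nsmul _ _ (((g P₀ : ℝ) ^ 2)⁻¹) fun P hP ↦ ?_).trans ?_
    · rw [Finset.mem_filter] at hP
      obtain ⟨f, hf⟩ := (exists_absNorm_eq_residueChar_pow P).2.2
      change Ideal.absNorm P.asIdeal = g P ^ f at hf
      rw [hP.2] at hf
      have hf2 : 2 ≤ f := by
        rcases f with _ | _ | f
        · have := two_le_absNorm P; rw [hf, pow_zero] at this; omega
        · exact absurd (by rw [hf, pow_one]; exact hpr) (hS P hP.1)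
        · omega
      have h1 : (1 : ℝ) ≤ g P₀ := by exact_mod_cast hpr.one_lt.le
      rw [primeWeight, hf, Nat.cast_pow, ← Real.rpow_natCast (g P₀ : ℝ) f,
        ← Real.rpow_mul (by positivity), ← Real.rpow_natCast (g P₀ : ℝ) 2,
        ← Real.rpow_neg (by positivity)]
      refine Real.rpow_le_rpow_of_exponent_le h1 ?_
      have : (2 : ℝ) ≤ f := by exact_mod_cast hf2
      push_cast; nlinarith [hs.1]
    · rw [nsmul_eq_mul]
      refine mul_le_mul_of_nonneg_right (Nat.cast_le.mpr ?_) (by positivity)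
      exact card_filter_residueChar_le (g P₀) hpr S
  refine ⟨bad.card + D + 2 * idealZeta K 2, fun s hs S ↦ ?_⟩
  refine add_le_add ?_ (mul_le_mul_of_nonneg_left (hsq s hs S) zero_le_two)
  rw [Finset.filter_or]
  refine le_trans (le_add_of_nonneg_right (Finset.sum_nonneg fun P _ ↦ (primeWeight_pos P s).le))
    (le_of_eq_of_le (Finset.sum_union_inter (f := fun P : HeightOneSpectrum (𝓞 K) ↦ primeWeight P s)) ?_)
  refine add_le_add ?_ (hD s hs _ fun P hP ↦ (Finset.mem_filter.mp hP).2)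
  refine (Finset.sum_le_card_nsmul _ _ 1 fun P _ ↦ ?_).trans ?_
  · linarith [primeWeight_le_half P hs.1.le]
  · rw [nsmul_eq_mul, mul_one]
    exact_mod_cast Finset.card_le_card fun P hP ↦ (Finset.mem_filter.mp hP).2

/-- The main analytic input. -/
theorem exists_prime_character_ne_one_and_not_pow (h3 : 3 ≤ p) {ζ : 𝓞 K}
    (hζ : IsPrimitiveRoot ζ p) (η : 𝓞 K) (hη : ∀ x : K, x ^ p ≠ (η : K))
    (ψ : ClassGroup (𝓞 K) →* Multiplicative (ZMod p)) (hψ : ψ ≠ 1) :
    ∃ P : HeightOneSpectrum (𝓞 K), (Ideal.absNorm P.asIdeal).Prime ∧ (p : 𝓞 K) ∉ P.asIdeal ∧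
      η ∉ P.asIdeal ∧ ψ (ClassGroup.mk0 (primeElt P)) ≠ 1 ∧
      ¬ ∃ x : 𝓞 K, η - x ^ p ∈ P.asIdeal := by
  by_contra! hcon
  obtain ⟨A₁, hA₁⟩ := exists_kummer_bound hζ η hη
  obtain ⟨A₂, hA₂⟩ := exists_character_bound (p := p) ψ hψ
  have hη0 : η ≠ 0 := fun h ↦ hη 0 (by rw [h, zero_pow hp.out.ne_zero]; rfl)
  have hfin : {P : HeightOneSpectrum (𝓞 K) |
      P.asIdeal ∣ Ideal.span {(p : 𝓞 K) * η}}.Finite :=
    Ideal.finite_factors (by
      simp [hη0, hp.out.ne_zero])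
  obtain ⟨C, hC⟩ := exists_error_bound hfin.toFinset
  set c := dedekindZeta_residue K / 2
  have hc : 0 < c := half_pos (dedekindZeta_residue_pos K)
  have hev : ∀ᶠ s : ℝ in 𝓝[>] 1, c < (s - 1) * idealZeta K s :=
    (tendsto_sub_one_mul_idealZeta K).eventually
      (Ioi_mem_nhds (half_lt_self (dedekindZeta_residue_pos K)))
  obtain ⟨δ, hδ, hsmall⟩ : ∃ δ : ℝ, 0 < δ ∧ ∀ t : ℝ, 0 < t → t < δ →
      A₁ * A₂ * Real.exp ((p : ℝ) * C) * t ^ (p - 2) < c ^ p := by
    have : Tendsto (fun t : ℝ ↦ A₁ * A₂ * Real.exp ((p : ℝ) * C) * t ^ (p - 2)) (𝓝 0) (𝓝 0) := by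
      simpa [zero_pow (by omega : p - 2 ≠ 0)] using
        ((continuous_pow (p - 2)).tendsto (0 : ℝ)).const_mul (A₁ * A₂ * Real.exp ((p : ℝ) * C))
    obtain ⟨δ, hδ, h⟩ := Metric.eventually_nhds_iff.mp (this.eventually (Iio_mem_nhds (pow_pos hc p)))
    exact ⟨δ, hδ, fun t h0 h1 ↦ h (by simpa [abs_of_pos h0] using h1)⟩
  obtain ⟨s, h1, h2, h3', h4, h5⟩ := (hA₁.and (hA₂.and (hev.and
    ((eventually_mem_nhdsWithin (a := (1 : ℝ)) (s := Set.Ioi 1)).and
      ((eventually_lt_nhds (b := min 2 (1 + δ)) (by simp [hδ])).filter_mono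
        nhdsWithin_le_nhds))))).exists
  have hs : s ∈ Set.Ioc (1 : ℝ) 2 := ⟨h4, (h5.le.trans (min_le_left _ _))⟩
  have hsδ : s - 1 < δ := by linarith [h5.trans_le (min_le_right _ _)]
  have hs0 : (0 : ℝ) < s - 1 := by linarith [hs.1]
  have hbound : idealZeta K s ^ p ≤ A₁ / (s - 1) * (A₂ / (s - 1)) * Real.exp ((p : ℝ) * C) := by
    refine le_of_tendsto ((tendsto_prod_primeWeight hs).pow p) (Eventually.of_forall fun S ↦ ?_)
    show (∏ P ∈ S, (1 - primeWeight P s)⁻¹) ^ p ≤ _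
    set bad := fun P : HeightOneSpectrum (𝓞 K) ↦
      P ∈ hfin.toFinset ∨ ¬ (Ideal.absNorm P.asIdeal).Prime
    set S₁ := (S.filter fun P ↦ ¬ bad P).filter fun P ↦ IsSplitAt η p P
    set S₂ := (S.filter fun P ↦ ¬ bad P).filter fun P ↦ ¬ IsSplitAt η p P
    have hS₂ : ∀ P ∈ S₂, ψ (ClassGroup.mk0 (primeElt P)) = 1 := by
      intro P hP
      simp only [S₂, bad, Finset.mem_filter, not_or, not_not, Set.Finite.mem_toFinset,
        Set.mem_ofPred_eq] at hP
      obtain ⟨⟨-, hbad, hprime⟩, hsplit⟩ := hP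
      have hpη : (p : 𝓞 K) * η ∉ P.asIdeal := fun h ↦
        hbad (Ideal.dvd_span_singleton.mpr h)
      have hpP : (p : 𝓞 K) ∉ P.asIdeal := fun h ↦ hpη (P.asIdeal.mul_mem_right _ h)
      have hηP : η ∉ P.asIdeal := fun h ↦ hpη (P.asIdeal.mul_mem_left _ h)
      by_contra h
      obtain ⟨x, hx⟩ := hcon P hprime hpP hηP h
      exact hsplit ⟨hprime, hpP, hηP, x, hx⟩
    have hsum : ∑ P ∈ S, primeWeight P s = ∑ P ∈ S.filter bad, primeWeight P s +
        (∑ P ∈ S₁, primeWeight P s + ∑ P ∈ S₂, primeWeight P s) := by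
      rw [Finset.sum_filter_add_sum_filter_not, Finset.sum_filter_add_sum_filter_not]
    calc (∏ P ∈ S, (1 - primeWeight P s)⁻¹) ^ p
        ≤ Real.exp (∑ P ∈ S, (primeWeight P s + 2 * primeWeight P s ^ 2)) ^ p := by
          refine pow_le_pow_left₀ (Finset.prod_nonneg fun P _ ↦
            zero_le_one.trans (one_le_inv_one_sub P hs.1.le)) ?_ p
          rw [Real.exp_sum]
          exact Finset.prod_le_prod (fun P _ ↦ zero_le_one.trans (one_le_inv_one_sub P hs.1.le))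
            fun P _ ↦ inv_one_sub_le_exp P hs.1.le
      _ ≤ Real.exp ((∑ P ∈ S₁, primeWeight P s) + (∑ P ∈ S₂, primeWeight P s) + C) ^ p := by
          refine pow_le_pow_left₀ (Real.exp_pos _).le (Real.exp_le_exp.mpr ?_) p
          rw [Finset.sum_add_distrib, ← Finset.mul_sum, hsum]
          linarith [hC s hs S]
      _ = Real.exp ((p : ℝ) * ∑ P ∈ S₁, primeWeight P s) *
          Real.exp ((p : ℝ) * ∑ P ∈ S₂, primeWeight P s) * Real.exp ((p : ℝ) * C) := by
          rw [← Real.exp_nat_mul, mul_add, mul_add, Real.exp_add, Real.exp_add]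
      _ ≤ _ := by
          refine mul_le_mul_of_nonneg_right (mul_le_mul (h1 S₁ fun P hP ↦ ?_) (h2 S₂ hS₂)
            (Real.exp_pos _).le ?_) (Real.exp_pos _).le
          · exact (Finset.mem_filter.mp hP).2
          · exact (Real.exp_pos _).le.trans (h1 ∅ (by simp))
  have h6 : c ^ p < ((s - 1) * idealZeta K s) ^ p := pow_lt_pow_left₀ h3' hc.le hp.out.ne_zero
  have h7 : ((s - 1) * idealZeta K s) ^ p ≤ A₁ * A₂ * Real.exp ((p : ℝ) * C) * (s - 1) ^ (p - 2) := by
    rw [mul_pow]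
    refine (mul_le_mul_of_nonneg_left hbound (by positivity)).trans_eq ?_
    rw [show (s - 1) ^ p = (s - 1) ^ (p - 2) * (s - 1) ^ 2 by rw [← pow_add]; congr 1; omega]
    field_simp
  linarith [hsmall (s - 1) hs0 hsδ]

end Fermat.Agent.ClassField
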