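import Mathlib.Algebra.Module.ZLattice.Covolume
import Mathlib.Algebra.Module.ZLattice.Summable
import Mathlib.Analysis.SpecialFunctions.JapaneseBracket
import Mathlib.MeasureTheory.Group.FundamentalDomain
import Mathlib.MeasureTheory.Integral.Bochner.Set

/-!
Comparison of a lattice sum with an integral, for functions whose oscillation at scale `r`
decays faster than the lattice sum can diverge.
-/

noncomputable section

open MeasureTheory Module Set

namespace Fermat.Agent.ClassField

variable {E : Type*} [NormedAddCommGroup E] [NormedSpace ℝ E] [FiniteDimensional ℝ E]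
  [MeasurableSpace E] [BorelSpace E]
  (L : Submodule ℤ E) [DiscreteTopology L] [IsZLattice ℝ L]

/-- The decay exponent used throughout. -/
def decay (x : E) : ℝ := (1 + ‖x‖) ^ (-((finrank ℝ E : ℝ) + 1))

lemma decay_nonneg (x : E) : 0 ≤ decay x :=
  Real.rpow_nonneg (by positivity) _

omit [MeasurableSpace E] [BorelSpace E] in
lemma summable_one_add_norm_rpow {r : ℝ} (hr : (finrank ℝ E : ℝ) < r) :
    Summable fun z : L ↦ (1 + ‖(z : E)‖) ^ (-r) := by
  have hd : finrank ℤ L = finrank ℝ E := ZLattice.rank ℝ L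
  refine Summable.of_norm_bounded_eventually
    (ZLattice.summable_norm_rpow L (-r) (by rw [hd]; linarith)) ?_
  filter_upwards [(Set.finite_singleton (0 : L)).compl_mem_cofinite] with z hz
  have hz' : 0 < ‖(z : E)‖ := by simpa using hz
  rw [Real.norm_of_nonneg (Real.rpow_nonneg (by positivity) _)]
  exact Real.rpow_le_rpow_of_nonpos (by simpa using hz) (by simp)
    (by linarith [(Nat.cast_nonneg (finrank ℝ E) : (0 : ℝ) ≤ _)])

variable (μ : Measure E) [μ.IsAddHaarMeasure]

theorem exists_bound_tsum_sub_integral :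
    ∃ r : ℝ, 0 < r ∧ ∀ C : ℝ, ∃ B : ℝ, ∀ F : E → ℝ, Integrable F μ →
      Summable (fun z : L ↦ F z) →
      (∀ x y, ‖y - x‖ ≤ r → |F y - F x| ≤ C * decay x) →
      |ZLattice.covolume L μ * (∑' z : L, F z) - ∫ x, F x ∂μ| ≤ B := by
  set b := Free.chooseBasis ℤ L
  set D := ZSpan.fundamentalDomain (b.ofZLatticeBasis ℝ L)
  have hD : IsAddFundamentalDomain L D μ := ZLattice.isAddFundamentalDomain b μ
  have hDb : Bornology.IsBounded D := ZSpan.fundamentalDomain_isBounded _
  obtain ⟨r, hr0, hr⟩ := hDb.exists_pos_norm_le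
  have hDfin : μ D < ⊤ := hDb.measure_lt_top
  refine ⟨r, hr0, fun C ↦ ⟨∑' z : L, C * decay (z : E) * μ.real D, fun F hF hsum hosc ↦ ?_⟩⟩
  rw [ZLattice.covolume_eq_measure_fundamentalDomain L μ hD]
  have : MeasurableVAdd L E := (inferInstance : MeasurableVAdd L.toAddSubgroup E)
  have : VAddInvariantMeasure L E μ := (inferInstance : VAddInvariantMeasure L.toAddSubgroup E μ)
  have key : ∀ z : L, |μ.real D * F z - ∫ x in D, F (z +ᵥ x) ∂μ| ≤ C * decay (z : E) * μ.real D := by
    intro z
    have hint : IntegrableOn (fun x ↦ F (z +ᵥ x)) D μ :=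
      ((measurePreserving_add_left μ (z : E)).integrable_comp_of_integrable hF).integrableOn
    have hc : IntegrableOn (fun _ ↦ F z) D μ := integrableOn_const hDfin.ne
    have : μ.real D * F z - ∫ x in D, F (z +ᵥ x) ∂μ = ∫ x in D, (F z - F (z +ᵥ x)) ∂μ := by
      rw [integral_sub hc hint, setIntegral_const, smul_eq_mul]
    rw [this]
    refine norm_setIntegral_le_of_norm_le_const (f := fun x ↦ F z - F (z +ᵥ x)) hDfin ?_
    intro x hx
    rw [Real.norm_eq_abs, abs_sub_comm]
    exact hosc _ _ (by simpa [Submodule.vadd_def] using hr x hx)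
  have hsD : Summable fun z : L ↦ C * decay (z : E) * μ.real D :=
    ((summable_one_add_norm_rpow L (by linarith : (finrank ℝ E : ℝ) < finrank ℝ E + 1)).mul_left
      C).mul_right _
  have hsd : Summable fun z : L ↦ μ.real D * F z - ∫ x in D, F (z +ᵥ x) ∂μ :=
    Summable.of_norm_bounded hsD key
  have hsI : Summable fun z : L ↦ ∫ x in D, F (z +ᵥ x) ∂μ :=
    ((hsum.mul_left (μ.real D)).sub hsd).congr fun z ↦ by ring
  rw [hD.integral_eq_tsum'' F hF, ← tsum_mul_left, ← Summable.tsum_sub (hsum.mul_left _) hsI]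
  exact (norm_tsum_le_tsum_norm hsd.norm).trans (Summable.tsum_le_tsum key hsd.norm hsD)

end Fermat.Agent.ClassField
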