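import Fermat.Agent.ClassField.LocalLog
import Mathlib.NumberTheory.NumberField.Cyclotomic.Embeddings
import Mathlib.LinearAlgebra.Eigenspace.Zero
import Mathlib.LinearAlgebra.Matrix.Gershgorin

/-!
For a nontrivial even character the eigenspace in units modulo torsion and `p`-th powers of
`ℚ(ζ_p)` has dimension at most one.
-/

noncomputable section

set_option maxSynthPendingDepth 3

open NumberField NumberField.InfinitePlace Module Polynomial
open scoped Classical

namespace Fermat.Agent.ClassField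

variable {K : Type} [Field K] [NumberField K] {p : ℕ} [hp : Fact p.Prime]
  [IsCyclotomicExtension {p} ℚ K]

/-- The action of an automorphism on units. -/
def unitAct (σ : K ≃ₐ[ℚ] K) : (𝓞 K)ˣ →* (𝓞 K)ˣ :=
  Units.map (MulSemiringAction.toRingHom (K ≃ₐ[ℚ] K) (𝓞 K) σ : 𝓞 K →* 𝓞 K)

@[simp] lemma coe_unitAct (σ : K ≃ₐ[ℚ] K) (u : (𝓞 K)ˣ) :
    ((unitAct σ u : (𝓞 K)ˣ) : K) = σ (u : K) := rfl

omit hp [IsCyclotomicExtension {p} ℚ K] in
lemma place_unitAct (σ : K ≃ₐ[ℚ] K) (u : (𝓞 K)ˣ) (w : InfinitePlace K) :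
    w ((unitAct σ u : (𝓞 K)ˣ) : K) = (σ⁻¹ • w) (u : K) := by
  rw [coe_unitAct, InfinitePlace.smul_apply, ← AlgEquiv.aut_inv, inv_inv]

omit hp [IsCyclotomicExtension {p} ℚ K] in
lemma unitAct_mem_torsion (σ : K ≃ₐ[ℚ] K) {u : (𝓞 K)ˣ} (hu : u ∈ Units.torsion K) :
    unitAct σ u ∈ Units.torsion K := by
  rw [Units.mem_torsion] at hu ⊢
  intro w
  rw [place_unitAct]
  exact hu _

/-- Units modulo torsion. -/
abbrev UnitLat (K : Type) [Field K] [NumberField K] : Type :=
  Additive ((𝓞 K)ˣ ⧸ Units.torsion K)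

/-- The class of a unit. -/
def latClass (u : (𝓞 K)ˣ) : UnitLat K := Additive.ofMul (QuotientGroup.mk u)

/-- The action on units modulo torsion. -/
def latAct (σ : K ≃ₐ[ℚ] K) : Module.End ℤ (UnitLat K) :=
  (MonoidHom.toAdditive (QuotientGroup.map (Units.torsion K) (Units.torsion K) (unitAct σ)
    fun _ hu ↦ unitAct_mem_torsion σ hu)).toIntLinearMap

omit hp [IsCyclotomicExtension {p} ℚ K] in
lemma latAct_latClass (σ : K ≃ₐ[ℚ] K) (u : (𝓞 K)ˣ) :
    latAct σ (latClass u) = latClass (unitAct σ u) := rfl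

omit hp [IsCyclotomicExtension {p} ℚ K] in
lemma latAct_pow_latClass (σ : K ≃ₐ[ℚ] K) (i : ℕ) (u : (𝓞 K)ˣ) :
    (latAct σ ^ i) (latClass u) = latClass (unitAct (σ ^ i) u) := by
  induction i generalizing u with
  | zero =>
    rw [pow_zero, pow_zero, Module.End.one_apply]
    exact congrArg latClass (Units.ext (RingOfIntegers.ext rfl))
  | succ i ih =>
    rw [pow_succ, pow_succ, Module.End.mul_apply, latAct_latClass, ih]
    exact congrArg latClass (Units.ext (RingOfIntegers.ext rfl))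

omit hp [IsCyclotomicExtension {p} ℚ K] in
lemma sum_smul_latClass_eq_zero {ι : Type*} (s : Finset ι) (e : ι → ℤ) (v : ι → (𝓞 K)ˣ)
    (h : ∑ i ∈ s, e i • latClass (v i) = 0) (w : InfinitePlace K) :
    ∑ i ∈ s, (e i : ℝ) * Real.log (w (v i : K)) = 0 := by
  have hmem : ∏ i ∈ s, v i ^ e i ∈ Units.torsion K := by
    rw [← QuotientGroup.eq_one_iff, ← ofMul_eq_zero, ← h, QuotientGroup.mk_prod, ofMul_prod]
    rfl
  have hw := (Units.mem_torsion K).mp hmem w
  let f : (𝓞 K)ˣ →* Multiplicative ℝ :=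
    { toFun := fun x ↦ Multiplicative.ofAdd (Real.log (w (x : K)))
      map_one' := by simp
      map_mul' := fun x y ↦ by
        simp only [Units.val_mul, map_mul]
        rw [← ofAdd_add, Real.log_mul (Units.pos_at_place x w).ne' (Units.pos_at_place y w).ne'] }
  have h1 : f (∏ i ∈ s, v i ^ e i) = 1 := by
    show Multiplicative.ofAdd (Real.log _) = 1
    rw [hw, Real.log_one, ofAdd_zero]
  rw [map_prod] at h1
  have h2 := congrArg Multiplicative.toAdd h1
  rw [toAdd_prod, toAdd_one] at h2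
  refine Eq.trans (Finset.sum_congr rfl fun i _ ↦ ?_) h2
  rw [map_zpow, toAdd_zpow, zsmul_eq_mul]
  rfl

variable (g : K ≃ₐ[ℚ] K) (hg : ∀ x, x ∈ Subgroup.zpowers g) (h3 : 3 ≤ p)

include h3 in
lemma two_mul_card_place : 2 * Fintype.card (InfinitePlace K) = p - 1 := by
  have : Fact (2 < p) := ⟨h3⟩
  have : IsTotallyComplex K := IsCyclotomicExtension.Rat.isTotallyComplex K (n := p) h3
  have h := IsCyclotomicExtension.Rat.finrank p K
  rw [Nat.totient_prime hp.out, IsTotallyComplex.finrank K] at h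
  rw [InfinitePlace.card_eq_nrRealPlaces_add_nrComplexPlaces,
    IsTotallyComplex.nrRealPlaces_eq_zero K, zero_add]
  exact h

include hg h3 in
lemma place_bijective (w : InfinitePlace K) :
    Function.Bijective fun i : Fin (Fintype.card (InfinitePlace K)) ↦ g ^ (i : ℕ) • w := by
  have : IsGalois ℚ K := IsCyclotomicExtension.isGalois {p} ℚ K
  set N := Function.minimalPeriod (g • ·) w with hN
  have hsurj : ∀ w' : InfinitePlace K, ∃ j, j < N ∧ g ^ j • w = w' := by
    intro w'
    obtain ⟨σ, hσ⟩ := InfinitePlace.exists_smul_eq_of_comap_eq (k := ℚ) (w := w) (w' := w')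
      (Subsingleton.elim _ _)
    obtain ⟨i, rfl⟩ := (mem_powers_iff_mem_zpowers).mpr (hg σ)
    have hpos : 0 < N := Function.IsPeriodicPt.minimalPeriod_pos (n := orderOf g) (orderOf_pos g) (by
      show (g • ·)^[orderOf g] w = w
      simp [smul_iterate, pow_orderOf_eq_one])
    refine ⟨i % N, Nat.mod_lt _ hpos, ?_⟩
    rw [← hσ]
    show g ^ (i % N) • w = g ^ i • w
    rw [hN, MulAction.pow_smul_mod_minimalPeriod]
  have hinj : ∀ i < N, ∀ j < N, g ^ i • w = g ^ j • w → i = j := fun i hi j hj h ↦ by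
    apply Function.iterate_injOn_Iio_minimalPeriod (f := (g • ·)) (x := w) hi hj
    simp only [smul_iterate]
    exact h
  let e : Fin N → InfinitePlace K := fun i ↦ g ^ (i : ℕ) • w
  have he : Function.Bijective e := ⟨fun i j h ↦ Fin.ext (hinj i i.2 j j.2 h), fun w' ↦ by
    obtain ⟨j, hj, h⟩ := hsurj w'; exact ⟨⟨j, hj⟩, h⟩⟩
  have hcard : N = Fintype.card (InfinitePlace K) := by
    simpa using Fintype.card_of_bijective he
  rw [← hcard]
  exact he

include hg h3 in
lemma geom_sum_latAct_eq_zero :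
    ∑ i : Fin (Fintype.card (InfinitePlace K)), latAct g ^ (i : ℕ) = 0 := by
  refine LinearMap.ext fun x ↦ ?_
  obtain ⟨u, rfl⟩ : ∃ u, latClass u = x := by
    obtain ⟨u, hu⟩ := QuotientGroup.mk_surjective (Additive.toMul x)
    exact ⟨u, by rw [latClass, hu]; rfl⟩
  rw [LinearMap.sum_apply, LinearMap.zero_apply]
  simp only [latAct_pow_latClass]
  set N := Fintype.card (InfinitePlace K)
  have hmem : ∏ i : Fin N, unitAct (g ^ (i : ℕ)) u ∈ Units.torsion K := by
    rw [Units.mem_torsion]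
    intro w
    simp only [Units.coe_prod, map_prod, place_unitAct]
    have hbij : Function.Bijective fun i : Fin N ↦ (g ^ (i : ℕ))⁻¹ • w := by
      rw [show (fun i : Fin N ↦ (g ^ (i : ℕ))⁻¹ • w) = fun i : Fin N ↦ g⁻¹ ^ (i : ℕ) • w from
        funext fun i ↦ by rw [inv_pow]]
      exact place_bijective (p := p) g⁻¹ (fun x ↦ by rw [Subgroup.zpowers_inv]; exact hg x) h3 w
    rw [Function.Bijective.prod_comp hbij (fun w' : InfinitePlace K ↦ w' (u : K))]
    have h : IsTotallyComplex K := IsCyclotomicExtension.Rat.isTotallyComplex K (n := p) h3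
    have h2 := Units.sum_mult_mul_log u
    have h3' : ∀ w : InfinitePlace K, (w.mult : ℝ) = 2 := fun w ↦ by
      rw [InfinitePlace.mult, if_neg (InfinitePlace.not_isReal_iff_isComplex.mpr (IsTotallyComplex.isComplex w))]
      norm_num
    simp only [h3', ← Finset.mul_sum, mul_eq_zero, two_ne_zero, false_or] at h2
    have hpos : (0 : ℝ) < ∏ w' : InfinitePlace K, w' (u : K) :=
      Finset.prod_pos fun w' _ ↦ Units.pos_at_place u w'
    refine Real.eq_one_of_pos_of_log_eq_zero hpos ?_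
    rw [Real.log_prod fun w' _ ↦ (Units.pos_at_place u w').ne']
    exact h2
  rw [← QuotientGroup.eq_one_iff, QuotientGroup.mk_prod] at hmem
  rw [show (0 : UnitLat K) = Additive.ofMul 1 from rfl, ← hmem, ofMul_prod]
  rfl

include hg h3 in
lemma exists_independent_orbit :
    ∃ u : (𝓞 K)ˣ, ∀ e : Fin (Fintype.card (InfinitePlace K) - 1) → ℤ,
      ∑ i, e i • (latAct g ^ (i : ℕ)) (latClass u) = 0 → e = 0 := by
  set N := Fintype.card (InfinitePlace K)
  obtain ⟨w⟩ := (inferInstance : Nonempty (InfinitePlace K))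
  obtain ⟨u, hu⟩ := Units.dirichletUnitTheorem.exists_unit K w
  refine ⟨u, fun e he ↦ ?_⟩
  simp only [latAct_pow_latClass] at he
  let A : Matrix (Fin (N - 1)) (Fin (N - 1)) ℝ := fun i j ↦
    Real.log ((g ^ (j : ℕ) • w) ((unitAct (g ^ (i : ℕ)) u : (𝓞 K)ˣ) : K))
  have hrel : Matrix.vecMul (fun i ↦ (e i : ℝ)) A = 0 := by
    ext j
    exact sum_smul_latClass_eq_zero Finset.univ e (fun i ↦ unitAct (g ^ (i : ℕ)) u) he _
  have hbij := place_bijective (p := p) g hg h3 w
  have hneg : ∀ i j : Fin N, i ≠ j →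
      Real.log ((g ^ (j : ℕ) • w) ((unitAct (g ^ (i : ℕ)) u : (𝓞 K)ˣ) : K)) < 0 := by
    intro i j hij
    rw [place_unitAct]
    refine hu _ fun h ↦ hij (hbij.injective ?_).symm
    show g ^ (j : ℕ) • w = g ^ (i : ℕ) • w
    conv_rhs => rw [← h]
    rw [smul_inv_smul]
  have hsum : ∀ i : Fin N, ∑ j : Fin N,
      Real.log ((g ^ (j : ℕ) • w) ((unitAct (g ^ (i : ℕ)) u : (𝓞 K)ˣ) : K)) = 0 := by
    intro i
    rw [Function.Bijective.sum_comp hbij
      (fun w' : InfinitePlace K ↦ Real.log (w' ((unitAct (g ^ (i : ℕ)) u : (𝓞 K)ˣ) : K)))]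
    have h : IsTotallyComplex K := IsCyclotomicExtension.Rat.isTotallyComplex K (n := p) h3
    have h2 := Units.sum_mult_mul_log (unitAct (g ^ (i : ℕ)) u)
    have h3' : ∀ w : InfinitePlace K, (w.mult : ℝ) = 2 := fun w ↦ by
      rw [InfinitePlace.mult, if_neg (InfinitePlace.not_isReal_iff_isComplex.mpr (IsTotallyComplex.isComplex w))]
      norm_num
    simpa [h3', ← Finset.mul_sum] using h2
  have hN : 0 < N := Fintype.card_pos
  have hdet : A.det ≠ 0 := by
    refine det_ne_zero_of_sum_row_lt_diag fun i ↦ ?_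
    let i' : Fin N := Fin.castLE (Nat.sub_le N 1) i
    let last : Fin N := ⟨N - 1, by omega⟩
    let F : Fin N → ℝ := fun j ↦ Real.log ((g ^ (j : ℕ) • w) ((unitAct (g ^ (i : ℕ)) u : (𝓞 K)ˣ) : K))
    have hF : ∀ j : Fin N, j ≠ i' → F j < 0 := fun j hj ↦ hneg i' j hj.symm
    set S := (Finset.univ.erase i).map ⟨Fin.castLE (Nat.sub_le N 1), Fin.castLE_injective _⟩
    have hlast : last ∉ S := by
      simp only [S, Finset.mem_map, Finset.mem_erase, not_exists, not_and]
      intro j _ hj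
      have h1 := congrArg Fin.val hj
      simp [last] at h1
      omega
    have hli : last ≠ i' := fun h ↦ by
      have h1 := congrArg Fin.val h
      simp [i', last] at h1
      omega
    have hSsub : insert last S ⊆ Finset.univ.erase i' := by
      intro j hj
      refine Finset.mem_erase.mpr ⟨?_, Finset.mem_univ _⟩
      rcases Finset.mem_insert.mp hj with rfl | hj
      · exact hli
      · obtain ⟨k, hk, rfl⟩ := Finset.mem_map.mp hj
        exact fun h ↦ (Finset.ne_of_mem_erase hk) (Fin.castLE_injective _ h)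
    have h0 := hsum i'
    change ∑ j : Fin N, F j = 0 at h0
    rw [← Finset.add_sum_erase _ F (Finset.mem_univ i')] at h0
    have h1 : ∑ j ∈ Finset.univ.erase i', F j ≤ ∑ j ∈ insert last S, F j :=
      Finset.sum_le_sum_of_subset_of_nonpos' hSsub fun j hj _ ↦ (hF j (Finset.ne_of_mem_erase hj)).le
    rw [Finset.sum_insert hlast] at h1
    have h2 : ∑ j ∈ Finset.univ.erase i, ‖A i j‖ = - ∑ j ∈ S, F j := by
      rw [Finset.sum_map, ← Finset.sum_neg_distrib]
      refine Finset.sum_congr rfl fun j hj ↦ ?_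
      have hA : A i j = F (Fin.castLE (Nat.sub_le N 1) j) := by simp only [A, F, Fin.val_castLE]
      rw [Real.norm_eq_abs, hA]
      exact abs_of_neg (hF (Fin.castLE (Nat.sub_le N 1) j)
        fun h ↦ (Finset.ne_of_mem_erase hj) (Fin.castLE_injective _ h))
    rw [h2, Real.norm_eq_abs]
    have h4 : A i i = F i' := by simp only [A, F, i', Fin.val_castLE]
    have h5 := hF last hli
    linarith [le_abs_self (A i i)]
  have := Matrix.eq_zero_of_vecMul_eq_zero hdet hrel
  exact funext fun i ↦ Int.cast_eq_zero.mp (congrFun this i)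

omit hp [IsCyclotomicExtension {p} ℚ K] in
lemma finrank_unitLat : finrank ℤ (UnitLat K) = Fintype.card (InfinitePlace K) - 1 :=
  Units.finrank_modTorsion K

include hg h3 in
lemma charpoly_latAct :
    (latAct g).charpoly = ∑ i : Fin (Fintype.card (InfinitePlace K)), (X : ℤ[X]) ^ (i : ℕ) := by
  set N := Fintype.card (InfinitePlace K)
  have hN : 0 < N := Fintype.card_pos
  obtain ⟨u, hu⟩ := exists_independent_orbit (p := p) g hg h3
  set D := (latAct g).charpoly - ∑ i : Fin N, (X : ℤ[X]) ^ (i : ℕ)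
  have hP : (∑ i : Fin N, (X : ℤ[X]) ^ (i : ℕ)) = ∑ i ∈ Finset.range N, (X : ℤ[X]) ^ i :=
    Fin.sum_univ_eq_sum_range (fun i ↦ (X : ℤ[X]) ^ i) N
  have hdeg : D.degree < (N - 1 : ℕ) := by
    have h1 : (latAct g).charpoly.natDegree = N - 1 := by
      rw [LinearMap.charpoly_natDegree, finrank_unitLat]
    have h2 : (∑ i ∈ Finset.range N, (X : ℤ[X]) ^ i).Monic := Polynomial.monic_geom_sum_X hN.ne'
    have h3 : (∑ i ∈ Finset.range N, (X : ℤ[X]) ^ i).natDegree = N - 1 := by
      obtain ⟨k, hk⟩ : ∃ k, N = k + 1 := ⟨N - 1, by omega⟩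
      rw [hk]
      simp only [Finset.sum_range_succ, Nat.add_sub_cancel]
      rw [Polynomial.natDegree_add_eq_right_of_degree_lt]
      · simp
      · refine lt_of_lt_of_eq ?_ (Polynomial.degree_X_pow k).symm
        refine (Polynomial.degree_sum_le _ _).trans_lt ((Finset.sup_lt_iff (WithBot.bot_lt_coe k)).mpr ?_)
        intro i hi
        rw [Polynomial.degree_X_pow]
        exact WithBot.coe_lt_coe.mpr (Finset.mem_range.mp hi)
    have h4 := Polynomial.degree_sub_lt_left (p := (latAct g).charpoly)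
      (q := ∑ i ∈ Finset.range N, (X : ℤ[X]) ^ i)
      (by rw [Polynomial.degree_eq_natDegree (LinearMap.charpoly_monic _).ne_zero,
        Polynomial.degree_eq_natDegree h2.ne_zero, h1, h3])
      (LinearMap.charpoly_monic _).ne_zero
      (by rw [(LinearMap.charpoly_monic _).leadingCoeff, h2.leadingCoeff])
    rw [Polynomial.degree_eq_natDegree (LinearMap.charpoly_monic _).ne_zero, h1, ← hP] at h4
    exact h4
  have hDT : Polynomial.aeval (latAct g) D = 0 := by
    simp only [D, map_sub, map_sum, map_pow, Polynomial.aeval_X, LinearMap.aeval_self_charpoly]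
    rw [geom_sum_latAct_eq_zero (p := p) g hg h3, sub_zero]
  have hcoef := hu (fun i ↦ D.coeff i) ?_
  · refine sub_eq_zero.mp (Polynomial.ext fun i ↦ ?_)
    rw [Polynomial.coeff_zero]
    by_cases hi : i < N - 1
    · exact congrFun hcoef ⟨i, hi⟩
    · exact Polynomial.coeff_eq_zero_of_degree_lt (hdeg.trans_le (by exact_mod_cast not_lt.mp hi))
  · by_cases hD : D = 0
    · simp [hD]
    have hn : D.natDegree < N - 1 := (Polynomial.natDegree_lt_iff_degree_lt hD).mpr hdeg
    have h := congrArg (fun f : Module.End ℤ (UnitLat K) ↦ f (latClass u)) hDT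
    rw [Polynomial.aeval_eq_sum_range' hn, ← Fin.sum_univ_eq_sum_range] at h
    simp only [LinearMap.sum_apply, LinearMap.zero_apply] at h
    refine Eq.trans (Finset.sum_congr rfl fun i _ ↦ ?_) h
    rfl

include hg h3 in
/-- Uniqueness of the eigenvector. -/
theorem exists_pow_mul_of_eigen {a : ℕ} (u₀ u : (𝓞 K)ˣ)
    (h₀ : ∃ y : (𝓞 K)ˣ, unitAct g u₀ = u₀ ^ a * y ^ p)
    (h : ∃ y : (𝓞 K)ˣ, unitAct g u = u ^ a * y ^ p)
    (hu₀ : ¬ ∃ ω ∈ Units.torsion K, ∃ v : (𝓞 K)ˣ, u₀ = ω * v ^ p) :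
    ∃ k : ℕ, ∃ ω ∈ Units.torsion K, ∃ v : (𝓞 K)ˣ, u = u₀ ^ k * ω * v ^ p := by
  set N := Fintype.card (InfinitePlace K)
  let b := Units.basisModTorsion K
  let A := LinearMap.toMatrix b b (latAct g)
  let φ : Module.End (ZMod p) (Fin (Units.rank K) → ZMod p) :=
    Matrix.toLin' (A.map (Int.castRingHom (ZMod p)))
  let red : UnitLat K → Fin (Units.rank K) → ZMod p := fun x i ↦ ((b.repr x i : ℤ) : ZMod p)
  have hred_add : ∀ x y, red (x + y) = red x + red y := fun x y ↦ funext fun i ↦ by simp [red]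
  have hred_nsmul : ∀ (n : ℕ) x, red (n • x) = (n : ZMod p) • red x := fun n x ↦ funext fun i ↦ by
    simp [red]
  have hφ : ∀ x, φ (red x) = red (latAct g x) := by
    intro x
    ext i
    have h1 := congrFun (LinearMap.toMatrix_mulVec_repr b b (latAct g) x) i
    simp only [φ, Matrix.toLin'_apply, Matrix.mulVec, dotProduct, Matrix.map_apply, red, A] at h1 ⊢
    rw [← h1]
    push_cast
    rfl
  have heig : ∀ v : (𝓞 K)ˣ, (∃ y : (𝓞 K)ˣ, unitAct g v = v ^ a * y ^ p) →
      red (latClass v) ∈ Module.End.eigenspace φ (a : ZMod p) := by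
    rintro v ⟨y, hy⟩
    rw [Module.End.mem_eigenspace_iff, hφ, latAct_latClass, hy,
      show latClass (v ^ a * y ^ p) = a • latClass v + p • latClass y from rfl, hred_add, hred_nsmul,
      hred_nsmul, ZMod.natCast_self, zero_smul, add_zero]
  have hker : ∀ v : (𝓞 K)ˣ, red (latClass v) = 0 → ∃ ω ∈ Units.torsion K, ∃ z, v = ω * z ^ p := by
    intro v hv
    have hdiv : ∀ i, (p : ℤ) ∣ b.repr (latClass v) i := fun i ↦
      (ZMod.intCast_zmod_eq_zero_iff_dvd _ p).mp (congrFun hv i)
    choose c hc using hdiv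
    obtain ⟨z, hz⟩ := QuotientGroup.mk_surjective (Additive.toMul (∑ i, c i • b i))
    refine ⟨v * (z ^ p)⁻¹, ?_, z, by rw [inv_mul_cancel_right]⟩
    rw [← QuotientGroup.eq_one_iff, QuotientGroup.mk_mul, QuotientGroup.mk_inv, QuotientGroup.mk_pow,
      hz, mul_inv_eq_one]
    apply Additive.ofMul.injective
    rw [ofMul_pow, ofMul_toMul, Finset.smul_sum]
    conv_lhs => rw [show Additive.ofMul (QuotientGroup.mk v : (𝓞 K)ˣ ⧸ Units.torsion K) = latClass v from rfl,
      ← b.sum_repr (latClass v)]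
    refine Finset.sum_congr rfl fun i _ ↦ ?_
    rw [hc i, mul_smul, natCast_zsmul]
  have hchar : φ.charpoly = ∑ i ∈ Finset.range N, (X : (ZMod p)[X]) ^ i := by
    rw [Matrix.charpoly_toLin', Matrix.charpoly_map, LinearMap.charpoly_toMatrix,
      charpoly_latAct (p := p) g hg h3, Polynomial.map_sum,
      ← Fin.sum_univ_eq_sum_range (fun i ↦ (X : (ZMod p)[X]) ^ i)]
    simp [N]
  have hNp : ((N : ℕ) : ZMod p) ≠ 0 := by
    rw [ne_eq, ZMod.natCast_eq_zero_iff]
    intro hdvd
    have := two_mul_card_place (K := K) (p := p) h3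
    have := Nat.le_of_dvd Fintype.card_pos hdvd
    omega
  have hmult : φ.charpoly.rootMultiplicity (a : ZMod p) ≤ 1 := by
    have hsep : ((X : (ZMod p)[X]) ^ N - C 1).Separable :=
      Polynomial.separable_X_pow_sub_C 1 hNp one_ne_zero
    refine le_trans (Polynomial.rootMultiplicity_le_rootMultiplicity_of_dvd hsep.ne_zero ⟨X - 1, ?_⟩ _)
      (Polynomial.rootMultiplicity_le_one_of_separable hsep _)
    rw [hchar, Polynomial.C_1, geom_sum_mul]
  have hfin : finrank (ZMod p) (Module.End.eigenspace φ (a : ZMod p)) = 1 := by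
    refine le_antisymm ((LinearMap.finrank_eigenspace_le φ _).trans hmult) ?_
    rw [Nat.one_le_iff_ne_zero, ne_eq, Submodule.finrank_eq_zero]
    intro hbot
    exact hu₀ (hker u₀ ((Submodule.eq_bot_iff _).mp hbot _ (heig u₀ h₀)))
  have hne : (⟨red (latClass u₀), heig u₀ h₀⟩ : Module.End.eigenspace φ (a : ZMod p)) ≠ 0 :=
    fun h0 ↦ hu₀ (hker u₀ (congrArg Subtype.val h0))
  obtain ⟨c, hc⟩ := exists_smul_eq_of_finrank_eq_one hfin hne ⟨red (latClass u), heig u h⟩
  have hc' : c • red (latClass u₀) = red (latClass u) := congrArg Subtype.val hc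
  refine ⟨c.val, ?_⟩
  obtain ⟨ω, hω, z, hz⟩ := hker (u * (u₀ ^ c.val)⁻¹) (by
    have h1 : red (latClass (u * (u₀ ^ c.val)⁻¹) + c.val • latClass u₀) = red (latClass u) := by
      congr 1
      show latClass u + -(c.val • latClass u₀) + c.val • latClass u₀ = latClass u
      abel
    rw [hred_add, hred_nsmul, ZMod.natCast_val, ZMod.cast_id, hc'] at h1
    exact add_eq_right.mp h1)
  exact ⟨ω, hω, z, by rw [mul_assoc, ← hz, mul_comm, inv_mul_cancel_right]⟩

end Fermat.Agent.ClassField
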